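/-
S44, block X1 RED (owner helper43).  The conjugates of `FN N` over `ℚ̄(j)`, as `t`-expansions
(`t = q^(1/N)`), on top of the analytic block `S24.B` (characteristic zero only).

`conj N γ f = texpL (γ • Psi f)`.
-/
import Fermat.Agent.S24.B.Invariants
import Fermat.Agent.S24.B.Gamma0

set_option autoImplicit false

noncomputable section

namespace Fermat.Agent.S44.X

open ModularCurve Fermat.Agent.S24 Fermat.Agent.S24.B CongruenceSubgroup IntermediateField
open scoped MatrixGroups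

variable (N : ℕ) [NeZero N]

/-- The conjugate embedding attached to `γ ∈ SL(2,ℤ)`. -/
def conj (γ : SL(2, ℤ)) : FN N →+* LaurentSeries Kbar :=
  (texpL N).toRingHom.comp
    ((MulSemiringAction.toRingHom SL(2, ℤ) (LN N) γ).comp (Psi N).toRingHom)

variable {N}

theorem conj_apply (γ : SL(2, ℤ)) (f : FN N) : conj N γ f = texpL N (γ • Psi N f) := rfl

/-- (C2) -/
theorem conj_one (f : FN N) : conj N 1 f = qExpand Kbar N (f : LaurentSeries Kbar) := by
  rw [conj_apply, one_smul, texpL_Psi]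
  rfl

/-- (C1) -/
theorem conj_mul_of_mem (γ h : SL(2, ℤ)) (hh : h ∈ Gamma0 N) (f : FN N) :
    conj N (γ * h) f = conj N γ f := by
  rw [conj_apply, conj_apply, mul_smul, smul_Psi_of_mem_Gamma0 h hh]

theorem smul_Psi_of_mem_adjoin (γ : SL(2, ℤ)) {r : FN N} (hr : r ∈ Kbar⟮jF N⟯) :
    γ • Psi N r = Psi N r := by
  induction hr using IntermediateField.adjoin_induction with
  | mem y hy =>
    rw [Set.mem_singleton_iff] at hy
    rw [hy, smul_Psi_jF]
  | algebraMap c => rw [AlgHom.commutes, smul_algebraMap_Kbar]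
  | add y z _ _ hy hz => rw [map_add, smul_add, hy, hz]
  | inv y _ hy => rw [map_inv₀, smul_inv'', hy]
  | mul y z _ _ hy hz => rw [map_mul, smul_mul', hy, hz]

/-- (C3) -/
theorem conj_of_mem_adjoin (γ : SL(2, ℤ)) {r : FN N} (hr : r ∈ Kbar⟮jF N⟯) :
    conj N γ r = qExpand Kbar N (r : LaurentSeries Kbar) := by
  rw [conj_apply, smul_Psi_of_mem_adjoin γ hr, texpL_Psi]
  rfl

instance instFintypeQuot : Fintype (SL(2, ℤ) ⧸ Gamma0 N) :=
  Subgroup.fintypeQuotientOfFiniteIndex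

/-- A representative of a coset. -/
def rep (c : SL(2, ℤ) ⧸ Gamma0 N) : SL(2, ℤ) := Quotient.out c

theorem mk_rep (c : SL(2, ℤ) ⧸ Gamma0 N) : (QuotientGroup.mk (rep c) : SL(2, ℤ) ⧸ Gamma0 N) = c :=
  Quotient.out_eq' c

theorem conj_eq_of_mk_eq {γ γ' : SL(2, ℤ)}
    (h : (QuotientGroup.mk γ : SL(2, ℤ) ⧸ Gamma0 N) = QuotientGroup.mk γ') (f : FN N) :
    conj N γ f = conj N γ' f := by
  rw [QuotientGroup.eq] at h
  have : γ' = γ * (γ⁻¹ * γ') := by group
  rw [this, conj_mul_of_mem _ _ h]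

theorem conj_rep_mk (γ : SL(2, ℤ)) (f : FN N) :
    conj N (rep (QuotientGroup.mk γ : SL(2, ℤ) ⧸ Gamma0 N)) f = conj N γ f :=
  conj_eq_of_mk_eq (mk_rep _) f

end Fermat.Agent.S44.X

end
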