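/-
S44, block X1 RED (owner helper43).  LEAF L1: the sum of the conjugates lies in `ℚ̄(j)`.
(proved by helper80)

Proof.  `g := ∑ c, rep c • Psi N f ∈ LN N` is invariant under `SL(2,ℤ)`: for `δ`,
`δ • g = ∑ c, (δ * rep c) • Psi N f`, and `(δ * rep c) • Psi N f = rep (δ • c) • Psi N f` because the two
elements lie in the same coset (`smul_Psi_of_mem_Gamma0`; same computation as `conj_eq_of_mk_eq`);
reindex by the permutation `c ↦ δ • c` of the quotient (`MulAction.toPerm δ`, `Equiv.sum_comp`;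
`δ • (QuotientGroup.mk γ) = QuotientGroup.mk (δ * γ)` is `rfl` / `MulAction.Quotient.smul_mk`).
Then `S24.B.invariants g` gives `r ∈ ℚ̄⟮jF N⟯` with `Psi N r = g`; apply `texpL N`, `texpL_Psi`, `map_sum`.
-/
import Fermat.Agent.S44.X.Red.Conj

set_option autoImplicit false

noncomputable section

namespace Fermat.Agent.S44.X

open ModularCurve Fermat.Agent.S24 Fermat.Agent.S24.B CongruenceSubgroup IntermediateField
open scoped MatrixGroups

variable {N : ℕ} [NeZero N]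

private theorem conjSum_smul_eq_of_mk_eq {γ γ' : SL(2, ℤ)}
    (h : (QuotientGroup.mk γ : SL(2, ℤ) ⧸ Gamma0 N) = QuotientGroup.mk γ') (f : FN N) :
    γ • Psi N f = γ' • Psi N f := by
  rw [QuotientGroup.eq] at h
  have : γ' = γ * (γ⁻¹ * γ') := by group
  rw [this, mul_smul, smul_Psi_of_mem_Gamma0 _ h]

/-- (C4) **The sum of the conjugates lies in `ℚ̄(j)`.** -/
theorem exists_sum_conj (f : FN N) :
    ∃ r ∈ Kbar⟮jF N⟯, qExpand Kbar N ((r : FN N) : LaurentSeries Kbar) =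
      ∑ c : SL(2, ℤ) ⧸ Gamma0 N, conj N (rep c) f := by
  have hinv : ∀ δ : SL(2, ℤ),
      δ • (∑ c : SL(2, ℤ) ⧸ Gamma0 N, rep c • Psi N f) =
        ∑ c : SL(2, ℤ) ⧸ Gamma0 N, rep c • Psi N f := by
    intro δ
    rw [Finset.smul_sum]
    conv_rhs =>
      rw [← Equiv.sum_comp (MulAction.toPerm δ : Equiv.Perm (SL(2, ℤ) ⧸ Gamma0 N))]
    refine Finset.sum_congr rfl fun c _ => ?_
    rw [← mul_smul]
    refine conjSum_smul_eq_of_mk_eq ?_ f
    rw [mk_rep, MulAction.toPerm_apply]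
    conv_rhs => rw [← mk_rep c]
    rfl
  obtain ⟨r, hr, hrg⟩ := invariants _ hinv
  refine ⟨r, hr, ?_⟩
  have h1 : texpL N (Psi N r) = ∑ c : SL(2, ℤ) ⧸ Gamma0 N, conj N (rep c) f := by
    rw [hrg, map_sum]
    rfl
  rw [← h1, texpL_Psi]
  rfl

end Fermat.Agent.S44.X

end
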