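/-
S44, block X1 RED (owner helper43).  Pure linear algebra (Mathlib only).

`ρ i : R →+* Ω` a finite family of ring homomorphisms, `Tr : R → κ` a function with
`φ (Tr z) = ∑ i, ρ i z` ("trace"), `t ∈ R` an element separating the `ρ i`.  Then every `ρ i y` is a
polynomial in `ρ i t` with coefficients in `φ κ`, the same polynomial for all `i`.
(Gram matrix of the trace form = `Vᵀ V`, `V` the Vandermonde matrix of the `ρ i t`.)
-/
import Mathlib

set_option autoImplicit false

namespace Fermat.Agent.S44.X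

open Matrix

theorem exists_coeffs_of_trace_fin {R κ Ω : Type*} [CommRing R] [Field κ] [Field Ω] {n : ℕ}
    (φ : κ →+* Ω) (ρ : Fin n → R →+* Ω) (Tr : R → κ)
    (hTr : ∀ z, φ (Tr z) = ∑ i, ρ i z) (t : R) (ht : Function.Injective fun i => ρ i t) (y : R) :
    ∃ x : Fin n → κ, ∀ i, ρ i y = ∑ a, φ (x a) * ρ i t ^ (a : ℕ) := by
  classical
  set V : Matrix (Fin n) (Fin n) Ω := Matrix.vandermonde fun i => ρ i t with hV
  have hVdet : V.det ≠ 0 := Matrix.det_vandermonde_ne_zero_iff.2 ht
  set G : Matrix (Fin n) (Fin n) κ := Matrix.of fun a b => Tr (t ^ ((a : ℕ) + (b : ℕ))) with hG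
  have hGV : G.map φ = Vᵀ * V := by
    ext a b
    rw [Matrix.map_apply, hG, Matrix.of_apply, hTr, Matrix.mul_apply]
    refine Finset.sum_congr rfl fun i _ => ?_
    rw [Matrix.transpose_apply, hV, Matrix.vandermonde_apply, Matrix.vandermonde_apply, map_pow,
      pow_add]
  have hGdet : G.det ≠ 0 := by
    intro h0
    have h1 : (G.map φ).det = 0 := by
      have := RingHom.map_det φ G
      rw [h0, map_zero] at this
      exact this.symm
    rw [hGV, Matrix.det_mul, Matrix.det_transpose] at h1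
    exact hVdet (mul_self_eq_zero.1 h1)
  set c : Fin n → κ := fun b => Tr (y * t ^ (b : ℕ)) with hc
  set x : Fin n → κ := G⁻¹ *ᵥ c with hx
  have hGx : G *ᵥ x = c := by
    rw [hx, Matrix.mulVec_mulVec, Matrix.mul_nonsing_inv _ (isUnit_iff_ne_zero.2 hGdet),
      Matrix.one_mulVec]
  refine ⟨x, ?_⟩
  -- `Vᵀ (V φ(x) - Y) = 0`
  set Y : Fin n → Ω := fun i => ρ i y with hY
  have h1 : Vᵀ *ᵥ (V *ᵥ (fun a => φ (x a)) - Y) = 0 := by
    rw [Matrix.mulVec_sub, Matrix.mulVec_mulVec, ← hGV, sub_eq_zero]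
    funext a
    have h2 := congrArg φ (congrFun hGx a)
    rw [Matrix.mulVec, dotProduct, map_sum] at h2
    rw [Matrix.mulVec, dotProduct]
    simp only [Matrix.map_apply]
    simp only [map_mul] at h2
    rw [h2, hc, hTr, Matrix.mulVec, dotProduct]
    refine Finset.sum_congr rfl fun i _ => ?_
    rw [Matrix.transpose_apply, hV, Matrix.vandermonde_apply, map_mul, map_pow, mul_comm]
  have h2 := Matrix.eq_zero_of_mulVec_eq_zero (by rw [Matrix.det_transpose]; exact hVdet) h1
  intro i
  have h3 := congrFun h2 i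
  rw [Pi.sub_apply, Pi.zero_apply, sub_eq_zero] at h3
  rw [← hY] at *
  show Y i = _
  rw [← h3, Matrix.mulVec, dotProduct]
  refine Finset.sum_congr rfl fun a _ => ?_
  rw [hV, Matrix.vandermonde_apply, mul_comm]

/-- The version for an arbitrary finite index type. -/
theorem exists_coeffs_of_trace {R κ Ω ι : Type*} [CommRing R] [Field κ] [Field Ω] [Fintype ι]
    (φ : κ →+* Ω) (ρ : ι → R →+* Ω) (Tr : R → κ)
    (hTr : ∀ z, φ (Tr z) = ∑ i, ρ i z) (t : R) (ht : Function.Injective fun i => ρ i t) (y : R) :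
    ∃ x : ℕ → κ, ∀ i, ρ i y = ∑ a ∈ Finset.range (Fintype.card ι), φ (x a) * ρ i t ^ a := by
  classical
  let e : ι ≃ Fin (Fintype.card ι) := Fintype.equivFin ι
  obtain ⟨x, hx⟩ := exists_coeffs_of_trace_fin φ (fun i => ρ (e.symm i)) Tr
    (fun z => by rw [hTr]; exact (Equiv.sum_comp e.symm fun i => ρ i z).symm) t
    (fun i j hij => e.symm.injective (ht hij)) y
  refine ⟨fun a => if h : a < Fintype.card ι then x ⟨a, h⟩ else 0, fun i => ?_⟩
  have h1 := hx (e i)
  rw [Equiv.symm_apply_apply] at h1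
  rw [h1, Finset.sum_range]
  refine Finset.sum_congr rfl fun a _ => ?_
  simp only [dif_pos a.2]

end Fermat.Agent.S44.X
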