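/-
S44, block X1 RED (owner helper43).  Series level toolkit on top of `S28.Export.Red`:

* `redRing O`   : the subring of `K((q))` of the series having a reduction, `redMap O` its reduction map;
* `redHomOf σ h`: the reduction of a ring homomorphism with values in `redRing O`;
* `red_qExpand` : compatibility with `q ↦ q ^ m`, and the converse inside a Gauss-good field;
* `red_of_isIntegral` : inside a Gauss-good field, integral over `redRing O` implies reducible.
-/
import Fermat.Agent.S28.Export.ResField

set_option autoImplicit false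

noncomputable section

namespace Fermat.Agent.S44.X

open ModularCurve Polynomial Fermat.Agent.S28.Export

variable {K : Type*} [Field K] (O : ValuationSubring K)

/-- The series having a reduction. -/
def redRing : Subring (LaurentSeries K) where
  carrier := {f | ∃ g, Red O f g}
  mul_mem' := by
    rintro a b ⟨g, hg⟩ ⟨g', hg'⟩
    exact ⟨_, hg.mul hg'⟩
  one_mem' := ⟨1, red_one⟩
  add_mem' := by
    rintro a b ⟨g, hg⟩ ⟨g', hg'⟩
    exact ⟨_, hg.add hg'⟩
  zero_mem' := ⟨0, red_zero⟩
  neg_mem' := by
    rintro a ⟨g, hg⟩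
    exact ⟨_, hg.neg⟩

variable {O}

theorem mem_redRing_iff {f : LaurentSeries K} : f ∈ redRing O ↔ ∃ g, Red O f g := Iff.rfl

theorem mem_redRing_of_red {f : LaurentSeries K} {g : LaurentSeries (IsLocalRing.ResidueField O)}
    (h : Red O f g) : f ∈ redRing O := ⟨g, h⟩

/-- The reduction of a ring homomorphism all of whose values have a reduction. -/
def redHomOf {S : Type*} [CommRing S] (σ : S →+* LaurentSeries K)
    (h : ∀ s, ∃ g, Red O (σ s) g) : S →+* LaurentSeries (IsLocalRing.ResidueField O) where
  toFun s := (h s).choose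
  map_one' := (h 1).choose_spec.unique (by rw [map_one]; exact red_one)
  map_mul' a b := (h (a * b)).choose_spec.unique
    (by rw [map_mul]; exact (h a).choose_spec.mul (h b).choose_spec)
  map_zero' := (h 0).choose_spec.unique (by rw [map_zero]; exact red_zero)
  map_add' a b := (h (a + b)).choose_spec.unique
    (by rw [map_add]; exact (h a).choose_spec.add (h b).choose_spec)

theorem red_redHomOf {S : Type*} [CommRing S] (σ : S →+* LaurentSeries K)
    (h : ∀ s, ∃ g, Red O (σ s) g) (s : S) : Red O (σ s) (redHomOf σ h s) := (h s).choose_spec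

theorem redHomOf_eq {S : Type*} [CommRing S] (σ : S →+* LaurentSeries K)
    (h : ∀ s, ∃ g, Red O (σ s) g) {s : S} {g : LaurentSeries (IsLocalRing.ResidueField O)}
    (hg : Red O (σ s) g) : redHomOf σ h s = g := (red_redHomOf σ h s).unique hg

variable (O) in
/-- The reduction map of `redRing O`. -/
def redMap : redRing O →+* LaurentSeries (IsLocalRing.ResidueField O) :=
  redHomOf (redRing O).subtype fun s => s.2

theorem red_redMap (s : redRing O) : Red O (s : LaurentSeries K) (redMap O s) :=
  red_redHomOf (redRing O).subtype (fun s => s.2) s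

theorem redMap_eq {s : redRing O} {g : LaurentSeries (IsLocalRing.ResidueField O)}
    (hg : Red O (s : LaurentSeries K) g) : redMap O s = g := (red_redMap s).unique hg

theorem coeffMap_qExpand'' {R S : Type*} [CommRing R] [CommRing S] (f : R →+* S) (n : ℕ)
    [NeZero n] (x : LaurentSeries R) : coeffMap f (qExpand R n x) = qExpand S n (coeffMap f x) := by
  ext k
  by_cases hk : (n : ℤ) ∣ k
  · obtain ⟨m, rfl⟩ := hk
    rw [coeffMap_coeff, qExpand_coeff_mul, qExpand_coeff_mul, coeffMap_coeff]
  · rw [coeffMap_coeff, qExpand_coeff_of_not_dvd n _ hk, qExpand_coeff_of_not_dvd n _ hk, map_zero]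

theorem red_qExpand {f : LaurentSeries K} {g : LaurentSeries (IsLocalRing.ResidueField O)}
    (h : Red O f g) (m : ℕ) [NeZero m] :
    Red O (qExpand K m f) (qExpand (IsLocalRing.ResidueField O) m g) := by
  obtain ⟨G₁, G₂, h2, hf, hg⟩ := h
  refine ⟨ModularCurve.qExpand O m G₁, ModularCurve.qExpand O m G₂, ?_, ?_, ?_⟩
  · rw [coeffMap_qExpand'']
    intro h0
    exact h2 (qExpand_injective m (by rw [h0, map_zero]))
  · rw [coeffMap_qExpand'', coeffMap_qExpand'', ← map_mul, hf]
  · rw [coeffMap_qExpand'', coeffMap_qExpand'', ← map_mul, hg]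

theorem qExpand_smul' (m : ℕ) [NeZero m] (c : K) (f : LaurentSeries K) :
    qExpand K m (c • f) = c • qExpand K m f := by
  rw [S28.Export.smul_eq_C_mul, S28.Export.smul_eq_C_mul, map_mul]
  congr 1
  show qExpand K m (HahnSeries.single 0 c) = HahnSeries.single 0 c
  rw [qExpand_single, mul_zero]

/-- Inside a Gauss-good field: if `f(q ^ m)` has a reduction then so has `f`. -/
theorem red_of_red_qExpand {E : IntermediateField K (LaurentSeries K)} (hE : IsGood O E)
    (m : ℕ) [NeZero m] {f : LaurentSeries K} (hf : f ∈ E)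
    {g : LaurentSeries (IsLocalRing.ResidueField O)} (h : Red O (qExpand K m f) g) :
    ∃ g', Red O f g' ∧ qExpand (IsLocalRing.ResidueField O) m g' = g := by
  rcases eq_or_ne f 0 with rfl | hf0
  · refine ⟨0, red_zero, ?_⟩
    rw [map_zero] at h ⊢
    exact red_zero.unique h
  obtain ⟨c, hc, g₀, hg₀, hr⟩ := hE f hf hf0
  have h1 := red_qExpand hr m
  rw [qExpand_smul'] at h1
  have hne : qExpand (IsLocalRing.ResidueField O) m g₀ ≠ 0 := fun h0 =>
    hg₀ (qExpand_injective m (by rw [h0, map_zero]))
  have hcO : c⁻¹ ∈ O := by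
    refine mem_of_red_smul h1 hne (c := c⁻¹) (g' := g) ?_
    rw [smul_smul, inv_mul_cancel₀ hc, one_smul]
    exact h
  have h2 := hr.smul ⟨c⁻¹, hcO⟩
  simp only [smul_smul, inv_mul_cancel₀ hc, one_smul] at h2
  exact ⟨_, h2, (red_qExpand h2 m).unique h⟩

/-- Inside a Gauss-good field, an element which is integral over `redRing O` has a reduction. -/
theorem red_of_isIntegral {E : IntermediateField K (LaurentSeries K)} (hE : IsGood O E)
    {z : LaurentSeries K} (hz : z ∈ E) (hint : IsIntegral (redRing O) z) : ∃ g, Red O z g := by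
  rcases eq_or_ne z 0 with rfl | hz0
  · exact ⟨0, red_zero⟩
  obtain ⟨c, hc, g₀, hg₀, hr⟩ := hE z hz hz0
  by_cases hcO : c⁻¹ ∈ O
  · have h2 := hr.smul ⟨c⁻¹, hcO⟩
    simp only [smul_smul, inv_mul_cancel₀ hc, one_smul] at h2
    exact ⟨_, h2⟩
  exfalso
  -- `c` is a non-unit of `O`, so `z⁻¹` reduces to `0`
  have hcn : c ∈ O.nonunits := by
    have hmem : c ∈ O := by
      have := O.mem_or_inv_mem c
      tauto
    rw [ValuationSubring.mem_nonunits_iff_exists_mem_maximalIdeal]
    refine ⟨hmem, ?_⟩
    rw [IsLocalRing.mem_maximalIdeal, mem_nonunits_iff]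
    intro hu
    obtain ⟨v, hv⟩ := hu.exists_right_inv
    apply hcO
    have h1 : c * (v : K) = 1 := congrArg Subtype.val hv
    rw [inv_eq_of_mul_eq_one_right h1]
    exact v.2
  have hw : Red O z⁻¹ 0 := by
    have h1 := (hr.inv hg₀).smul_of_mem_nonunits hcn
    have hC : (HahnSeries.C c : LaurentSeries K) ≠ 0 := by
      intro h0
      apply hc
      have := congrArg (fun x => HahnSeries.coeff x 0) h0
      simpa using this
    have e : c • (c • z)⁻¹ = z⁻¹ := by
      rw [S28.Export.smul_eq_C_mul, S28.Export.smul_eq_C_mul, mul_inv, ← mul_assoc, mul_inv_cancel₀ hC, one_mul]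
    rwa [e] at h1
  obtain ⟨p, hp, hpz⟩ := hint
  set w : redRing O := ⟨z⁻¹, mem_redRing_of_red hw⟩ with hwdef
  have h1 : eval₂ (algebraMap (redRing O) (LaurentSeries K)) z⁻¹ p.reverse = 0 := by
    let _ := invertibleOfNonzero hz0
    have := (eval₂_reverse_eq_zero_iff (algebraMap (redRing O) (LaurentSeries K)) z p).2 hpz
    rwa [invOf_eq_inv] at this
  have h2 : p.reverse.eval w = 0 := by
    apply Subtype.val_injective
    have h3 : ((p.reverse.eval w : redRing O) : LaurentSeries K) =
        eval₂ (algebraMap (redRing O) (LaurentSeries K)) z⁻¹ p.reverse := by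
      have := hom_eval₂ p.reverse (RingHom.id (redRing O)) (redRing O).subtype w
      rw [RingHom.comp_id] at this
      rw [← eval₂_id] 
      exact this
    rw [h3, h1]
    rfl
  have h4 : p.reverse.coeff 0 = 1 := by rw [coeff_zero_reverse, hp.leadingCoeff]
  have h5 : p.reverse.divX.eval w * w + 1 = 0 := by
    have := congrArg (Polynomial.eval w) (divX_mul_X_add p.reverse)
    rw [eval_add, eval_mul, eval_X, eval_C, h4, h2] at this
    exact this
  have h6 := congrArg (redMap O) h5
  rw [map_add, map_mul, map_one, map_zero, redMap_eq (s := w) hw, mul_zero, zero_add] at h6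
  exact one_ne_zero h6

end Fermat.Agent.S44.X

end
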