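/-
S44, block X1 RED (owner helper43).  The ambient Gauss-good field.

`Bdd A z` : the coefficients of `z ∈ ℚ̄((t))` lie in a number field and have bounded denominators.
`fracField A` : the field of fractions of the bounded series, inside `ℚ̄((t))`.  It is Gauss-good
(`isGood_fracField`), and it contains all the fields of modular functions and their conjugates.
-/
import Fermat.Agent.S44.X.Red.Basic
import Fermat.Agent.GAL.E.Scaling
import Fermat.Agent.S24.B.Laurent

set_option autoImplicit false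

noncomputable section

namespace Fermat.Agent.S44.X

open ModularCurve Fermat.Agent.S24 Fermat.Agent.S24.B Fermat.Agent.GAL.E Fermat.Agent.S28.Export

variable (A : ValuationSubring Kbar)

/-- Coefficients in a number field, with bounded denominators. -/
def Bdd (z : LaurentSeries Kbar) : Prop :=
  (∃ L : IntermediateField ℚ Kbar, FiniteDimensional ℚ L ∧ ∀ k, z.coeff k ∈ L) ∧
    ∃ c : Kbar, c ≠ 0 ∧ c ∈ A ∧ ∀ k, c * z.coeff k ∈ A

variable {A}

theorem Bdd.add {x y : LaurentSeries Kbar} (hx : Bdd A x) (hy : Bdd A y) : Bdd A (x + y) := by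
  obtain ⟨⟨L₁, hL₁, h₁⟩, c₁, hc₁, hc₁A, hA₁⟩ := hx
  obtain ⟨⟨L₂, hL₂, h₂⟩, c₂, hc₂, hc₂A, hA₂⟩ := hy
  refine ⟨⟨L₁ ⊔ L₂, IntermediateField.finiteDimensional_sup L₁ L₂, fun k => ?_⟩,
    c₁ * c₂, mul_ne_zero hc₁ hc₂, mul_mem hc₁A hc₂A, fun k => ?_⟩
  · rw [HahnSeries.coeff_add]
    exact add_mem ((le_sup_left : L₁ ≤ L₁ ⊔ L₂) (h₁ k)) ((le_sup_right : L₂ ≤ L₁ ⊔ L₂) (h₂ k))
  · rw [HahnSeries.coeff_add]
    have : c₁ * c₂ * (x.coeff k + y.coeff k) =
        c₂ * (c₁ * x.coeff k) + c₁ * (c₂ * y.coeff k) := by ring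
    rw [this]
    exact add_mem (mul_mem hc₂A (hA₁ k)) (mul_mem hc₁A (hA₂ k))

theorem Bdd.mul {x y : LaurentSeries Kbar} (hx : Bdd A x) (hy : Bdd A y) : Bdd A (x * y) := by
  obtain ⟨⟨L₁, hL₁, h₁⟩, c₁, hc₁, hc₁A, hA₁⟩ := hx
  obtain ⟨⟨L₂, hL₂, h₂⟩, c₂, hc₂, hc₂A, hA₂⟩ := hy
  refine ⟨⟨L₁ ⊔ L₂, IntermediateField.finiteDimensional_sup L₁ L₂, fun k => ?_⟩,
    c₁ * c₂, mul_ne_zero hc₁ hc₂, mul_mem hc₁A hc₂A, fun k => ?_⟩
  · rw [HahnSeries.coeff_mul]
    refine sum_mem fun ij _ => ?_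
    exact mul_mem ((le_sup_left : L₁ ≤ L₁ ⊔ L₂) (h₁ _)) ((le_sup_right : L₂ ≤ L₁ ⊔ L₂) (h₂ _))
  · rw [HahnSeries.coeff_mul, Finset.mul_sum]
    refine sum_mem fun ij _ => ?_
    have : c₁ * c₂ * (x.coeff ij.1 * y.coeff ij.2) =
        (c₁ * x.coeff ij.1) * (c₂ * y.coeff ij.2) := by ring
    rw [this]
    exact mul_mem (hA₁ _) (hA₂ _)

theorem bdd_algebraMap (a : Kbar) : Bdd A (algebraMap Kbar (LaurentSeries Kbar) a) := by
  have hcoeff : ∀ k, (algebraMap Kbar (LaurentSeries Kbar) a).coeff k = a ∨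
      (algebraMap Kbar (LaurentSeries Kbar) a).coeff k = 0 := by
    intro k
    rw [algebraMap_laurentSeries_eq_single]
    by_cases hk : k = 0
    · left; rw [hk, HahnSeries.coeff_single_same]
    · right; rw [HahnSeries.coeff_single_of_ne hk]
  refine ⟨⟨IntermediateField.adjoin ℚ {a},
    IntermediateField.adjoin.finiteDimensional (isIntegral_rat_Kbar a), fun k => ?_⟩, ?_⟩
  · rcases hcoeff k with h | h <;> rw [h]
    · exact IntermediateField.mem_adjoin_simple_self ℚ a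
    · exact zero_mem _
  · rcases A.mem_or_inv_mem a with ha | ha
    · refine ⟨1, one_ne_zero, one_mem _, fun k => ?_⟩
      rcases hcoeff k with h | h <;> rw [h, one_mul]
      · exact ha
      · exact zero_mem _
    · by_cases ha0 : a = 0
      · refine ⟨1, one_ne_zero, one_mem _, fun k => ?_⟩
        rcases hcoeff k with h | h <;> rw [h, one_mul]
        · rw [ha0]; exact zero_mem _
        · exact zero_mem _
      · refine ⟨a⁻¹, inv_ne_zero ha0, ha, fun k => ?_⟩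
        rcases hcoeff k with h | h <;> rw [h]
        · rw [inv_mul_cancel₀ ha0]; exact one_mem _
        · rw [mul_zero]; exact zero_mem _

variable (A) in
/-- The algebra of bounded series. -/
def bddAlg : Subalgebra Kbar (LaurentSeries Kbar) where
  carrier := {z | Bdd A z}
  mul_mem' := Bdd.mul
  add_mem' := Bdd.add
  algebraMap_mem' := bdd_algebraMap

theorem mem_bddAlg_iff {z : LaurentSeries Kbar} : z ∈ bddAlg A ↔ Bdd A z := Iff.rfl

/-- A series with coefficients in `A` and in a number field is bounded. -/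
theorem bdd_of_coeff_mem {z : LaurentSeries Kbar} (L : IntermediateField ℚ Kbar)
    [FiniteDimensional ℚ L] (hL : ∀ k, z.coeff k ∈ L) (hA : ∀ k, z.coeff k ∈ A) : Bdd A z :=
  ⟨⟨L, inferInstance, hL⟩, 1, one_ne_zero, one_mem _, fun k => by rw [one_mul]; exact hA k⟩

/-- Gauss normalisation of a bounded series. -/
theorem exists_scaling_of_bdd (ℓ : ℕ) (hℓ : ℓ.Prime) (hA : A.LiesOverPrime ℓ)
    (z : LaurentSeries Kbar) (hz : Bdd A z) (hz0 : z ≠ 0) :
    ∃ (c : Kbar) (x : LaurentSeries A), c ≠ 0 ∧ red A x ≠ 0 ∧ z = HahnSeries.C c * incl A x := by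
  obtain ⟨⟨L, hLfin, hL⟩, c₀, hc₀, -, hbd⟩ := hz
  have hne : ∃ s ∈ Set.range z.coeff, s ≠ 0 := by
    by_contra hcon
    push Not at hcon
    apply hz0
    ext k
    exact hcon _ ⟨k, rfl⟩
  obtain ⟨s₀, ⟨k₀, hk₀⟩, hs₀, hmax⟩ := exists_max_of_bounded A ℓ hℓ hA L (Set.range z.coeff)
    (by rintro _ ⟨k, rfl⟩; exact hL k) hne c₀ hc₀ (by rintro _ ⟨k, rfl⟩; exact hbd k)
  obtain ⟨x, hx⟩ := exists_incl_eq A (HahnSeries.C s₀⁻¹ * z) (fun k => by
    rw [scaling_coeff_C_mul, mul_comm, ← div_eq_mul_inv]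
    exact hmax _ ⟨k, rfl⟩)
  refine ⟨s₀, x, hs₀, ?_, ?_⟩
  · intro hred
    have h1 : (red A x).coeff k₀ = 0 := by rw [hred]; rfl
    rw [coeff_red] at h1
    have h2 : ((x.coeff k₀ : A) : Kbar) = 1 := by
      rw [← coeff_incl, hx, scaling_coeff_C_mul, hk₀, inv_mul_cancel₀ hs₀]
    have h3 : x.coeff k₀ = 1 := Subtype.ext h2
    rw [h3, map_one] at h1
    exact one_ne_zero h1
  · rw [hx, ← mul_assoc, ← map_mul, mul_inv_cancel₀ hs₀, map_one, one_mul]

variable (A) in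
/-- The field of fractions of the bounded series. -/
def fracField : IntermediateField Kbar (LaurentSeries Kbar) :=
  IntermediateField.adjoin Kbar {z | Bdd A z}

theorem mem_fracField_of_bdd {z : LaurentSeries Kbar} (hz : Bdd A z) : z ∈ fracField A :=
  IntermediateField.subset_adjoin _ _ hz

theorem exists_div_of_mem_fracField {f : LaurentSeries Kbar} (hf : f ∈ fracField A) :
    ∃ a b : LaurentSeries Kbar, Bdd A a ∧ Bdd A b ∧ b ≠ 0 ∧ f = a / b := by
  obtain ⟨r, hr, s, hs, hu⟩ := IntermediateField.mem_adjoin_iff_div.mp hf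
  have hle : Algebra.adjoin Kbar {z | Bdd A z} ≤ bddAlg A := Algebra.adjoin_le fun z hz => hz
  by_cases hs0 : s = 0
  · refine ⟨0, 1, (bddAlg A).zero_mem, (bddAlg A).one_mem, one_ne_zero, ?_⟩
    rw [hu, hs0, div_zero, zero_div]
  · exact ⟨r, s, hle hr, hle hs, hs0, hu⟩

/-- **The ambient field is Gauss-good.** -/
theorem isGood_fracField (ℓ : ℕ) (hℓ : ℓ.Prime) (hA : A.LiesOverPrime ℓ) :
    IsGood A (fracField A) := by
  intro f hf hf0
  obtain ⟨a, b, ha, hb, hb0, rfl⟩ := exists_div_of_mem_fracField hf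
  have ha0 : a ≠ 0 := by
    rintro rfl
    exact hf0 (zero_div _)
  obtain ⟨ca, x, hca, hrx, hax⟩ := exists_scaling_of_bdd ℓ hℓ hA a ha ha0
  obtain ⟨cb, y, hcb, hry, hby⟩ := exists_scaling_of_bdd ℓ hℓ hA b hb hb0
  refine ⟨cb / ca, div_ne_zero hcb hca, red A x / red A y, div_ne_zero hrx hry, ?_⟩
  have hCa : (HahnSeries.C ca : LaurentSeries Kbar) ≠ 0 := by
    intro h
    apply hca
    have := congrArg (fun s : LaurentSeries Kbar => s.coeff 0) h
    simpa using this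
  have hCb : (HahnSeries.C cb : LaurentSeries Kbar) ≠ 0 := by
    intro h
    apply hcb
    have := congrArg (fun s : LaurentSeries Kbar => s.coeff 0) h
    simpa using this
  have hy0 : incl A y ≠ 0 := by
    intro h
    apply hb0
    rw [hby, h, mul_zero]
  have e : (cb / ca) • (a / b) = incl A x / incl A y := by
    rw [S28.Export.smul_eq_C_mul, hax, hby, map_div₀]
    field_simp
  rw [e]
  exact (red_iota x).div (red_iota y) hry

/-- A root of unity lies in every valuation subring. -/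
theorem mem_of_pow_eq_one {ξ : Kbar} {n : ℕ} (hn : 0 < n) (h : ξ ^ n = 1) : ξ ∈ A := by
  rcases A.mem_or_inv_mem ξ with h1 | h1
  · exact h1
  · have h2 : ξ = ξ⁻¹ ^ (n - 1) := by
      have hξ : ξ ≠ 0 := by
        rintro rfl
        rw [zero_pow hn.ne'] at h
        exact zero_ne_one h
      obtain ⟨m, rfl⟩ : ∃ m, n = m + 1 := ⟨n - 1, by omega⟩
      rw [Nat.add_sub_cancel, inv_pow]
      rw [pow_succ] at h
      exact eq_inv_of_mul_eq_one_right h
    rw [h2]
    exact pow_mem h1 _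

theorem zpow_mem_of_pow_eq_one {ξ : Kbarˣ} {n : ℕ} (hn : 0 < n) (h : ξ ^ n = 1) (m : ℤ) :
    ((ξ ^ m : Kbarˣ) : Kbar) ∈ A := by
  refine mem_of_pow_eq_one hn (n := n) ?_
  rw [← Units.val_pow_eq_pow_val, ← zpow_natCast, ← zpow_mul, mul_comm, zpow_mul, zpow_natCast, h,
    one_zpow, Units.val_one]

/-- The conjugates of the `j(q ^ d)` are bounded. -/
theorem bdd_qExpand_twist_Jser (e : ℕ) [NeZero e] {ξ : Kbarˣ} {n : ℕ} (hn : 0 < n)
    (h : ξ ^ n = 1) : Bdd A (qExpand Kbar e (twist ξ (Jser 1))) := by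
  have : FiniteDimensional ℚ (IntermediateField.adjoin ℚ {(ξ : Kbar)}) :=
    IntermediateField.adjoin.finiteDimensional (isIntegral_rat_Kbar _)
  have hξL : (ξ : Kbar) ∈ IntermediateField.adjoin ℚ {(ξ : Kbar)} :=
    IntermediateField.mem_adjoin_simple_self ℚ _
  refine bdd_of_coeff_mem (IntermediateField.adjoin ℚ {(ξ : Kbar)}) (fun k => ?_) fun k => ?_
  · by_cases hk : (e : ℤ) ∣ k
    · obtain ⟨m, rfl⟩ := hk
      rw [qExpand_coeff_mul, twist_coeff]
      obtain ⟨i, hi⟩ := exists_int_coeff_Jser 1 m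
      rw [hi, Units.val_zpow_eq_zpow_val]
      exact mul_mem (zpow_mem hξL m) (intCast_mem _ i)
    · rw [qExpand_coeff_of_not_dvd _ _ hk]; exact zero_mem _
  · by_cases hk : (e : ℤ) ∣ k
    · obtain ⟨m, rfl⟩ := hk
      rw [qExpand_coeff_mul, twist_coeff]
      obtain ⟨i, hi⟩ := exists_int_coeff_Jser 1 m
      rw [hi]
      exact mul_mem (zpow_mem_of_pow_eq_one hn h m) (intCast_mem _ i)
    · rw [qExpand_coeff_of_not_dvd _ _ hk]; exact zero_mem _

end Fermat.Agent.S44.X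

end
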