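/-
S44, block X1 RED (owner helper43; proofs helper193, task 2374).
LEAF L2: the `t`-expansions of the generators of `AL N`.
-/
import Fermat.Agent.S44.X.Red.Conj

set_option autoImplicit false

noncomputable section

namespace Fermat.Agent.S44.X

open ModularCurve Fermat.Agent.S24 Fermat.Agent.S24.B CongruenceSubgroup IntermediateField
open scoped MatrixGroups

variable {N : ℕ} [NeZero N]

/-- The explicit form of the expansion of a generator. -/
theorem exists_hasTExp_gen' (g : GL (Fin 2) ℝ) (hg : IsLevelMat N g) :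
    ∃ (e : ℕ) (_ : NeZero e) (x : ℤ),
      HasTExp N (fun τ => jfun (g • τ)) (qExpand Kbar e (twist (zetaK N ^ x) (Jser 1))) := by
  obtain ⟨α, hα, hN, hg⟩ := hg
  obtain ⟨a, b, d, ha, hd, had, hgcd, hj⟩ := jfun_levelMat Stubs.jfun_smul g α hα hg
  obtain ⟨M, hM⟩ := hN
  have hNpos : (0 : ℤ) < (N : ℤ) := by exact_mod_cast Nat.pos_of_ne_zero (NeZero.ne N)
  have hMpos : 0 < M := by
    rw [hM] at hNpos
    exact (mul_pos_iff_of_pos_left hα).1 hNpos
  have hepos : 0 < M * a ^ 2 := by positivity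
  set e : ℕ := (M * a ^ 2).toNat with he
  have heZ : (e : ℤ) = M * a ^ 2 := Int.toNat_of_nonneg hepos.le
  have hne : NeZero e := ⟨by
    intro h
    rw [h] at heZ
    simp only [Nat.cast_zero] at heZ
    omega⟩
  have hed : (e : ℤ) * d = N * a := by
    rw [heZ, hM, ← had]; ring
  have hξ : iota ((zetaK N ^ (M * a * b) : Kbarˣ) : Kbar) =
      Complex.exp (2 * Real.pi * Complex.I * b / d) := by
    rw [iota_zetaK_zpow]
    congr 1
    have h1 : ((N : ℕ) : ℂ) = (M : ℂ) * a * d := by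
      have : ((N : ℕ) : ℤ) = M * a * d := by rw [hM, ← had]; ring
      exact_mod_cast this
    have hM0 : (M : ℂ) ≠ 0 := by exact_mod_cast hMpos.ne'
    have ha0 : (a : ℂ) ≠ 0 := by exact_mod_cast ha.ne'
    have hd0 : (d : ℂ) ≠ 0 := by exact_mod_cast hd.ne'
    rw [h1]
    push_cast
    field_simp
  refine ⟨e, hne, M * a * b, ?_⟩
  have h := hasTExp_tri (N := N) Stubs.hasTExp_jfun a b d ha hd e hed _ hξ
  have hfun : (fun τ => jfun (g • τ)) = fun τ => jfun (triMat a b d ha hd • τ) := funext hj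
  rw [hfun]
  exact h

/-- (C5) The conjugates of `j(q ^ N)`. -/
theorem exists_conj_JF (γ : SL(2, ℤ)) :
    ∃ (e : ℕ) (_ : NeZero e) (x : ℤ),
      conj N γ (JF N N dvd_rfl) = qExpand Kbar e (twist (zetaK N ^ x) (Jser 1)) := by
  obtain ⟨e, he, x, h⟩ := exists_hasTExp_gen' (N := N) (dilMat N * ((γ⁻¹ : SL(2, ℤ)) : GL (Fin 2) ℝ))
    ((isLevelMat_dilMat dvd_rfl).mul_SL γ⁻¹)
  refine ⟨e, he, x, ?_⟩
  rw [conj_apply, Psi_JF, smul_algebraMap_AL, texpL_algebraMap]
  apply texp_eq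
  have hfun : (γ • jd N N dvd_rfl).1 =
      fun τ => jfun ((dilMat N * ((γ⁻¹ : SL(2, ℤ)) : GL (Fin 2) ℝ)) • τ) := by
    funext τ
    rw [mul_smul]
    rfl
  rw [hfun]
  exact h

/-- auxiliary form of `texp_mem_of_gen`, suitable for induction. -/
private theorem texp_mem_of_gen_aux (S : Subalgebra Kbar (LaurentSeries Kbar))
    (hS : ∀ (e : ℕ) [NeZero e] (x : ℤ), qExpand Kbar e (twist (zetaK N ^ x) (Jser 1)) ∈ S)
    (f : UpperHalfPlane → ℂ) (hf : f ∈ AL N) : texp N ⟨f, hf⟩ ∈ S := by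
  induction hf using Algebra.adjoin_induction with
  | mem f hf =>
    obtain ⟨g, hg, rfl⟩ := hf
    obtain ⟨e, he, x, h⟩ := exists_hasTExp_gen' (N := N) g hg
    rw [texp_eq (f := ⟨fun τ => jfun (g • τ), _⟩) h]
    exact hS e x
  | algebraMap c =>
    have h : texp N (algebraMap Kbar (AL N) c) ∈ S := by
      rw [AlgHom.commutes]
      exact S.algebraMap_mem c
    exact h
  | add f g hf hg h1 h2 =>
    have h : texp N (⟨f, hf⟩ + ⟨g, hg⟩) ∈ S := by
      rw [map_add]
      exact S.add_mem h1 h2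
    exact h
  | mul f g hf hg h1 h2 =>
    have h : texp N (⟨f, hf⟩ * ⟨g, hg⟩) ∈ S := by
      rw [map_mul]
      exact S.mul_mem h1 h2
    exact h

/-- (C6) The expansion of an element of `AL N` lies in every subalgebra containing the
`j (ζ t ^ e)`. -/
theorem texp_mem_of_gen (S : Subalgebra Kbar (LaurentSeries Kbar))
    (hS : ∀ (e : ℕ) [NeZero e] (x : ℤ), qExpand Kbar e (twist (zetaK N ^ x) (Jser 1)) ∈ S)
    (f : AL N) : texp N f ∈ S :=
  texp_mem_of_gen_aux S hS f.1 f.2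

/-- (C6) The conjugates lie in every subfield containing the `j (ζ t ^ e)`. -/
theorem conj_mem_of_gen (E : IntermediateField Kbar (LaurentSeries Kbar))
    (hE : ∀ (e : ℕ) [NeZero e] (x : ℤ), qExpand Kbar e (twist (zetaK N ^ x) (Jser 1)) ∈ E)
    (γ : SL(2, ℤ)) (f : FN N) : conj N γ f ∈ E := by
  rw [conj_apply]
  obtain ⟨a, b, -, hab⟩ := IsFractionRing.div_surjective (A := AL N) (γ • Psi N f)
  rw [← hab, map_div₀, texpL_algebraMap, texpL_algebraMap]
  exact div_mem (texp_mem_of_gen E.toSubalgebra hE a) (texp_mem_of_gen E.toSubalgebra hE b)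

end Fermat.Agent.S44.X

end
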