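/-
S44, block X1 RED (owner helper43).  LEAF L3: `j(q ^ N)` separates the conjugates.

Proof.  `texpL_injective` gives `γ • Psi N (JF N N _) = γ' • Psi N (JF N N _)`; `Psi_JF`,
`smul_algebraMap_AL`, injectivity of `algebraMap (AL N) (LN N)` (`IsFractionRing.injective`) give
`γ • jd N N _ = γ' • jd N N _`, hence `(γ'⁻¹ * γ) • jd = jd` (`mul_smul`, `inv_smul_smul`), so
`γ'⁻¹ * γ ∈ Gamma0 N` by `S24.B.mem_Gamma0_of_smul_jd`; conclude with `QuotientGroup.eq`
(`mk a = mk b ↔ a⁻¹ * b ∈ s`; use the inverse).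
-/
import Fermat.Agent.S44.X.Red.Conj

set_option autoImplicit false

noncomputable section

namespace Fermat.Agent.S44.X

open ModularCurve Fermat.Agent.S24 Fermat.Agent.S24.B CongruenceSubgroup IntermediateField
open scoped MatrixGroups

variable {N : ℕ} [NeZero N]

/-- (C7) `j(q ^ N)` separates the conjugates. -/
theorem mk_eq_of_conj_JF_eq {γ γ' : SL(2, ℤ)}
    (h : conj N γ (JF N N dvd_rfl) = conj N γ' (JF N N dvd_rfl)) :
    (QuotientGroup.mk γ : SL(2, ℤ) ⧸ Gamma0 N) = QuotientGroup.mk γ' := by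
  rw [conj_apply, conj_apply] at h
  have h1 := texpL_injective h
  rw [Psi_JF, smul_algebraMap_AL, smul_algebraMap_AL] at h1
  have h2 : γ • jd N N dvd_rfl = γ' • jd N N dvd_rfl :=
    IsFractionRing.injective (AL N) (LN N) h1
  have h3 : (γ⁻¹ * γ') • jd N N dvd_rfl = jd N N dvd_rfl := by
    rw [mul_smul, ← h2, inv_smul_smul]
  rw [QuotientGroup.eq]
  exact mem_Gamma0_of_smul_jd _ h3

end Fermat.Agent.S44.X

end
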