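/-
S44, block X1 RED (owner helper43).  LEAF L4: reduction is injective on the `N`-th roots of unity, `p ∤ N`.

Proof.  `ξ` is a unit of `A` (`ξ * ξ ^ (N - 1) = 1`).  Put `η = ξ' * ξ ^ (N - 1)`: `η ^ N = 1`,
`residue η = 1`.  If `η ≠ 1` then `∑ i ∈ range N, η ^ i = 0` (`mul_geom_sum` / `geom_sum_mul`:
`(∑ η ^ i) * (η - 1) = η ^ N - 1 = 0`, `A` is a domain); applying `residue` gives `(N : k) = 0`
(`map_sum`, `map_pow`, `one_pow`, `Finset.sum_const`, `Finset.card_range`, `nsmul_one`), which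
contradicts `p ∤ N` (`GAL.E.charP_residueField A p hp hA`, `CharP.cast_eq_zero_iff`).
-/
import Fermat.Agent.GAL.E.Frob

set_option autoImplicit false

noncomputable section

namespace Fermat.Agent.S44.X

open Fermat.Agent.S24 Fermat.Agent.GAL.E

variable {A : ValuationSubring Kbar} {N p : ℕ}

/-- Reduction is injective on the `N`-th roots of unity, `p ∤ N`. -/
theorem eq_of_residue_eq_of_pow_eq_one (hp : p.Prime) (hA : A.LiesOverPrime p) (hpN : ¬ p ∣ N)
    {ξ ξ' : A} (h : ξ ^ N = 1) (h' : ξ' ^ N = 1)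
    (hres : IsLocalRing.residue A ξ = IsLocalRing.residue A ξ') : ξ = ξ' := by
  have hN0 : N ≠ 0 := fun h0 => hpN (h0 ▸ dvd_zero p)
  have hN1 : N - 1 + 1 = N := Nat.succ_pred_eq_of_ne_zero hN0
  have hu : ξ * ξ ^ (N - 1) = 1 := by rw [← pow_succ', hN1, h]
  set η : A := ξ' * ξ ^ (N - 1) with hη
  have hηN : η ^ N = 1 := by
    rw [hη, mul_pow, h', one_mul, ← pow_mul, mul_comm, pow_mul, h, one_pow]
  have hηres : IsLocalRing.residue A η = 1 := by
    rw [hη, map_mul, ← hres, ← map_mul, hu, map_one]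
  have hη1 : η = 1 := by
    by_contra hne
    have hgeom : (∑ i ∈ Finset.range N, η ^ i) * (η - 1) = 0 := by
      rw [geom_sum_mul, hηN, sub_self]
    have hsum : ∑ i ∈ Finset.range N, η ^ i = 0 :=
      (mul_eq_zero.mp hgeom).resolve_right (sub_ne_zero.mpr hne)
    have hcast : ((N : ℕ) : IsLocalRing.ResidueField A) = 0 := by
      have := congrArg (IsLocalRing.residue A) hsum
      rw [map_sum, map_zero] at this
      simpa [map_pow, hηres] using this
    have := charP_residueField A p hp hA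
    exact hpN ((CharP.cast_eq_zero_iff (IsLocalRing.ResidueField A) p N).mp hcast)
  calc ξ = ξ * η := by rw [hη1, mul_one]
    _ = ξ' * (ξ * ξ ^ (N - 1)) := by rw [hη]; ring
    _ = ξ' := by rw [hu, mul_one]

end Fermat.Agent.S44.X

end
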