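/-
S44, block X1 RED (owner helper43).  LEAF L7: the conjugates of `j(q ^ N)` have distinct reductions (`p ∤ N`).

Proof.  By `exists_conj_JF` the two conjugates are `s = qExpand e (twist ξ (Jser 1))`,
`s' = qExpand e' (twist ξ' (Jser 1))`, `ξ = zetaK N ^ x`, `ξ' = zetaK N ^ x'`.  All the coefficients of
`s` lie in `A` (as in `bdd_qExpand_twist_Jser`), so `s = incl A S` (`GAL.E.exists_incl_eq`), and
`Red A s (red A S)` (`red_iota`), so `g = red A S = red A S'` (`Red.unique`).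
Coefficients: `s.coeff (-e) = ξ⁻¹` (`-e = e * (-1)`, `qExpand_coeff_mul`, `twist_coeff`,
`S24.B.Jser_one_coeff_neg_one`), `s.coeff k = 0` for `k < -e` (`qExpand_coeff_of_not_dvd` or
`qExpand_coeff_mul` + `S24.B.Jser_one_coeff_of_lt`).  `ξ⁻¹` is a unit of `A`, so its residue is not `0`.
If `e < e'`: `(red A S').coeff (-e') ≠ 0 = (red A S).coeff (-e')`, contradiction; same for `e' < e`.
So `e = e'` and `residue ξ⁻¹ = residue ξ'⁻¹`, hence `ξ⁻¹ = ξ'⁻¹` by `eq_of_residue_eq_of_pow_eq_one`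
(both are `N`-th roots of unity), `s = s'`, and `mk_eq_of_conj_JF_eq` concludes.
-/
import Fermat.Agent.S44.X.Red.Bdd
import Fermat.Agent.S44.X.Red.ConjGen
import Fermat.Agent.S44.X.Red.ConjSep
import Fermat.Agent.S44.X.Red.Roots
import Fermat.Agent.S24.B.Points

set_option autoImplicit false

noncomputable section

namespace Fermat.Agent.S44.X

open ModularCurve Fermat.Agent.S24 Fermat.Agent.S24.B Fermat.Agent.GAL.E Fermat.Agent.S28.Export
  CongruenceSubgroup IntermediateField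
open scoped MatrixGroups

variable {A : ValuationSubring Kbar} {N p : ℕ} [NeZero N]

theorem sep_coeff_mem (e : ℕ) [NeZero e] {ξ : Kbarˣ} {n : ℕ} (hn : 0 < n) (h : ξ ^ n = 1) (k : ℤ) :
    (qExpand Kbar e (twist ξ (Jser 1))).coeff k ∈ A := by
  by_cases hk : (e : ℤ) ∣ k
  · obtain ⟨m, rfl⟩ := hk
    rw [qExpand_coeff_mul, twist_coeff]
    obtain ⟨i, hi⟩ := exists_int_coeff_Jser 1 m
    rw [hi]
    exact mul_mem (zpow_mem_of_pow_eq_one hn h m) (intCast_mem _ i)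
  · rw [qExpand_coeff_of_not_dvd _ _ hk]
    exact zero_mem _

theorem sep_coeff_lt (e : ℕ) [NeZero e] (ξ : Kbarˣ) {k : ℤ} (hk : k < -(e : ℤ)) :
    (qExpand Kbar e (twist ξ (Jser 1))).coeff k = 0 := by
  by_cases hd : (e : ℤ) ∣ k
  · obtain ⟨m, rfl⟩ := hd
    have he : (0 : ℤ) < e := by exact_mod_cast NeZero.pos e
    have hm : m < -1 := by nlinarith
    rw [qExpand_coeff_mul, twist_coeff, Jser_one_coeff_of_lt hm, mul_zero]
  · exact qExpand_coeff_of_not_dvd _ _ hd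

theorem sep_coeff_neg (e : ℕ) [NeZero e] (ξ : Kbarˣ) :
    (qExpand Kbar e (twist ξ (Jser 1))).coeff (-(e : ℤ)) = ((ξ⁻¹ : Kbarˣ) : Kbar) := by
  have h : -(e : ℤ) = e * (-1) := by ring
  rw [h, qExpand_coeff_mul, twist_coeff, Jser_one_coeff_neg_one, mul_one, zpow_neg_one]

/-- The lowest coefficients of the reduction of `j (ξ t ^ e)`. -/
theorem sep_red_coeff (e : ℕ) [NeZero e] {ξ : Kbarˣ} {n : ℕ} (hn : 0 < n) (h : ξ ^ n = 1)
    {g : LaurentSeries (IsLocalRing.ResidueField A)}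
    (hg : Red A (qExpand Kbar e (twist ξ (Jser 1))) g) (hm : ((ξ⁻¹ : Kbarˣ) : Kbar) ∈ A) :
    (∀ k : ℤ, k < -(e : ℤ) → g.coeff k = 0) ∧
      g.coeff (-(e : ℤ)) = IsLocalRing.residue A ⟨((ξ⁻¹ : Kbarˣ) : Kbar), hm⟩ := by
  obtain ⟨S, hS⟩ := exists_incl_eq A _ (sep_coeff_mem (A := A) e hn h)
  have hr : Red A (qExpand Kbar e (twist ξ (Jser 1))) (red A S) := by
    rw [← hS]
    exact red_iota S
  rw [hg.unique hr]
  refine ⟨fun k hk => ?_, ?_⟩
  · have h0 : S.coeff k = 0 := by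
      apply Subtype.ext
      rw [← coeff_incl, hS, sep_coeff_lt e ξ hk]
      rfl
    rw [coeff_red, h0, map_zero]
  · have h0 : S.coeff (-(e : ℤ)) = ⟨((ξ⁻¹ : Kbarˣ) : Kbar), hm⟩ := by
      apply Subtype.ext
      rw [← coeff_incl, hS, sep_coeff_neg e ξ]
    rw [coeff_red, h0]

theorem sep_residue_ne_zero {a : A} {n : ℕ} (hn : 0 < n) (h : a ^ n = 1) :
    IsLocalRing.residue A a ≠ 0 := by
  intro h0
  have h1 := congrArg (IsLocalRing.residue A) h
  rw [map_pow, h0, map_one, zero_pow hn.ne'] at h1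
  exact zero_ne_one h1

/-- The conjugates of `j(q ^ N)` have distinct reductions. -/
theorem mk_eq_of_red_conj_JF (hp : p.Prime) (hA : A.LiesOverPrime p) (hpN : ¬ p ∣ N)
    {γ γ' : SL(2, ℤ)} {g : LaurentSeries (IsLocalRing.ResidueField A)}
    (h : Red A (conj N γ (JF N N dvd_rfl)) g) (h' : Red A (conj N γ' (JF N N dvd_rfl)) g) :
    (QuotientGroup.mk γ : SL(2, ℤ) ⧸ Gamma0 N) = QuotientGroup.mk γ' := by
  have hN : 0 < N := NeZero.pos N
  obtain ⟨e, he, x, hx⟩ := exists_conj_JF (N := N) γ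
  obtain ⟨e', he', x', hx'⟩ := exists_conj_JF (N := N) γ'
  apply mk_eq_of_conj_JF_eq
  rw [hx, hx']
  rw [hx] at h
  rw [hx'] at h'
  have hpow : ∀ y : ℤ, (zetaK N ^ y) ^ N = 1 := by
    intro y
    rw [← zpow_natCast, ← zpow_mul, mul_comm, zpow_mul, zpow_natCast,
      (isPrimitiveRoot_zetaK N).pow_eq_one, one_zpow]
  have hinv : ∀ y : ℤ, (((zetaK N ^ y)⁻¹ : Kbarˣ) : Kbar) ∈ A := by
    intro y
    have := zpow_mem_of_pow_eq_one (A := A) hN (hpow y) (-1)
    rwa [zpow_neg_one] at this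
  have hinvpow : ∀ y : ℤ, (⟨_, hinv y⟩ : A) ^ N = 1 := by
    intro y
    apply Subtype.ext
    show (((zetaK N ^ y)⁻¹ : Kbarˣ) : Kbar) ^ N = 1
    rw [← Units.val_pow_eq_pow_val, inv_pow, hpow, inv_one, Units.val_one]
  obtain ⟨h1, h2⟩ := sep_red_coeff e hN (hpow x) h (hinv x)
  obtain ⟨h1', h2'⟩ := sep_red_coeff e' hN (hpow x') h' (hinv x')
  have hee : e = e' := by
    rcases lt_trichotomy e e' with hlt | heq | hlt
    · exfalso
      apply sep_residue_ne_zero hN (hinvpow x')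
      rw [← h2']
      exact h1 _ (by exact_mod_cast neg_lt_neg (Int.ofNat_lt.2 hlt))
    · exact heq
    · exfalso
      apply sep_residue_ne_zero hN (hinvpow x)
      rw [← h2]
      exact h1' _ (by exact_mod_cast neg_lt_neg (Int.ofNat_lt.2 hlt))
  subst hee
  have h3 := eq_of_residue_eq_of_pow_eq_one hp hA hpN (hinvpow x) (hinvpow x') (h2.symm.trans h2')
  have h4 : (zetaK N ^ x)⁻¹ = (zetaK N ^ x')⁻¹ := Units.ext (congrArg Subtype.val h3)
  rw [inv_inj.1 h4]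

end Fermat.Agent.S44.X

end
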