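/-
S44, block X1 RED (owner helper43).  **Good levels**: for `p ∤ N` the residue field of the Gauss
valuation of `FN N` is `k(j, j_N) ⊆ modularFunctionFieldFullC k N`.

Proof.  `ρ c` = reduction of the conjugate embedding `conj N (rep c)` on the Gauss ring `gaussFN A N`;
the sum of the `ρ c z` is the `q ↦ q ^ N` of an element of `k(j)` (`exists_sum_conj`, `resField_jK`);
`j_N` separates the `ρ c` (`mk_eq_of_red_conj_JF`); linear algebra (`exists_coeffs_of_trace`).
-/
import Fermat.Agent.S44.X.Red.Integral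
import Fermat.Agent.S44.X.Red.Sep
import Fermat.Agent.S44.X.Red.ConjSum
import Fermat.Agent.S44.X.Red.LinAlg

set_option autoImplicit false

noncomputable section

namespace Fermat.Agent.S44.X

open ModularCurve Fermat.Agent.S24 Fermat.Agent.S24.B Fermat.Agent.GAL.E Fermat.Agent.S28.Export
  CongruenceSubgroup IntermediateField
open scoped MatrixGroups

variable (A : ValuationSubring Kbar) (N : ℕ)

/-- The Gauss ring of `FN N`. -/
def gaussFN : Subring (FN N) := (redRing A).comap (modularFunctionFieldBar N).val.toRingHom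

variable {A N}

theorem mem_gaussFN_iff {f : FN N} : f ∈ gaussFN A N ↔ ∃ g, Red A (f : LaurentSeries Kbar) g :=
  Iff.rfl

theorem Jser_one_eq_jqModC : Jser 1 = jqModC Kbar := by
  rw [Formal.Jser_one, ← jqModC_rat]
  exact coeffMap_jqModC _

theorem red_Jser (d : ℕ) [NeZero d] :
    Red A (Jser d) (qExpand (IsLocalRing.ResidueField A) d (jqModC (IsLocalRing.ResidueField A))) := by
  rw [Jser_eq_qExpand, Jser_one_eq_jqModC]
  exact red_qExpand (red_jqModC A) d

variable {p : ℕ} [NeZero N]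

local notation "𝕜" => IsLocalRing.ResidueField A

/-- **The residue field at a good level.** -/
theorem red_mem_full (hp : p.Prime) (hA : A.LiesOverPrime p) (hpN : ¬ p ∣ N) (f : FN N)
    {g : LaurentSeries (IsLocalRing.ResidueField A)} (h : Red A (f : LaurentSeries Kbar) g) :
    g ∈ modularFunctionFieldFullC (IsLocalRing.ResidueField A) N := by
  classical
  -- the reductions of the conjugate embeddings
  let σ : SL(2, ℤ) ⧸ Gamma0 N → gaussFN A N →+* LaurentSeries Kbar :=
    fun c => (conj N (rep c)).comp (gaussFN A N).subtype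
  have hσ : ∀ c (s : gaussFN A N), ∃ g', Red A (σ c s) g' := fun c s => by
    obtain ⟨g₀, hg₀⟩ := s.2
    exact exists_red_conj hp hA hpN (rep c) s.1 hg₀
  let ρ : SL(2, ℤ) ⧸ Gamma0 N → gaussFN A N →+* LaurentSeries 𝕜 := fun c => redHomOf (σ c) (hσ c)
  have hρ : ∀ c (s : gaussFN A N), Red A (conj N (rep c) (s : FN N)) (ρ c s) :=
    fun c s => red_redHomOf (σ c) (hσ c) s
  let φ : ↥(jK 𝕜) →+* LaurentSeries 𝕜 := (qExpand 𝕜 N).comp (SubringClass.subtype (jK 𝕜))
  -- the trace
  have hex : ∀ z : gaussFN A N, ∃ x : ↥(jK 𝕜), φ x = ∑ c, ρ c z := by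
    intro z
    obtain ⟨r, hr, hsum⟩ := exists_sum_conj (z : FN N)
    have h1 : Red A (qExpand Kbar N ((r : FN N) : LaurentSeries Kbar)) (∑ c, ρ c z) := by
      rw [hsum]
      exact Red.sum _ fun c _ => hρ c z
    have hrj := coe_mem_jK_of_mem_adjoin_jF hr
    obtain ⟨g', hg', he⟩ := red_of_red_qExpand (isGood_jK A) N hrj h1
    have hmem : g' ∈ jK 𝕜 := by
      rw [← resField_jK A]
      exact ⟨_, hrj, hg'⟩
    exact ⟨⟨g', hmem⟩, he⟩
  choose Tr hTr using hex
  -- the separating element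
  let t : gaussFN A N := ⟨JF N N dvd_rfl, ⟨_, red_Jser N⟩⟩
  have ht : Function.Injective fun c => ρ c t := by
    intro c c' hcc
    have h1 := hρ c t
    have h2 := hρ c' t
    have hcc' : ρ c t = ρ c' t := hcc
    rw [← hcc'] at h2
    have := mk_eq_of_red_conj_JF hp hA hpN h1 h2
    rwa [mk_rep, mk_rep] at this
  let y : gaussFN A N := ⟨f, ⟨g, h⟩⟩
  obtain ⟨x, hx⟩ := exists_coeffs_of_trace φ ρ Tr hTr t ht y
  -- evaluate at the trivial coset
  set c₀ : SL(2, ℤ) ⧸ Gamma0 N := QuotientGroup.mk 1 with hc₀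
  have e1 : ∀ (s : gaussFN A N) (gs : LaurentSeries 𝕜), Red A ((s : FN N) : LaurentSeries Kbar) gs →
      ρ c₀ s = qExpand 𝕜 N gs := by
    intro s gs hs
    refine (hρ c₀ s).unique ?_
    rw [hc₀, conj_rep_mk, conj_one]
    exact red_qExpand hs N
  have h3 := hx c₀
  rw [e1 y g h, e1 t _ (red_Jser N)] at h3
  have h4 : qExpand 𝕜 N g = qExpand 𝕜 N (∑ a ∈ Finset.range (Fintype.card (SL(2, ℤ) ⧸ Gamma0 N)),
      ((x a : ↥(jK 𝕜)) : LaurentSeries 𝕜) * (qExpand 𝕜 N (jqModC 𝕜)) ^ a) := by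
    rw [h3, map_sum]
    refine Finset.sum_congr rfl fun a _ => ?_
    rw [map_mul, map_pow]
    rfl
  rw [qExpand_injective N h4]
  refine sum_mem fun a _ => mul_mem ?_ (pow_mem (jqModCd_mem_full 𝕜 N dvd_rfl) a)
  have hle : jK 𝕜 ≤ modularFunctionFieldFullC 𝕜 N := by
    rw [IntermediateField.adjoin_le_iff]
    rintro z rfl
    exact jqModC_mem_full 𝕜 N
  exact hle (x a).2

end Fermat.Agent.S44.X

end
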