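/-
S44, block X1 RED (owner helper43).  LEAF L10: every reduction at level `M p` is a reduction at level `M`
(series form of the trace trick of helper95, `S34.Nodal.Inst.exists_rho_eq_FN`).

Proof.  `W := S34.alInv M p hp hpM : S34.ALInv M p`; `w := AlgEquiv.ofRingEquiv (f := W.w) W.w_algebraMap`
is an `S34.Nodal.Inst.IsAL M p w` (`⟨W.w_alpha, W.w_beta⟩`).  `S34.Nodal.Inst.mem_gauss_FN_of_hasRed A p hp
hA (M * p) f h` gives `hy : f ∈ gaussSubring ..` with `rho .. ⟨f, hy⟩ = g`;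
`S34.Nodal.Inst.exists_rho_eq_FN hp hpM A hA hw ⟨f, hy⟩` gives `y'`; `S34.Nodal.Inst.hasRed_rho y'`.
-/
import Fermat.Agent.S44.Defs
import Fermat.Agent.S44.X.Red.Basic
import Fermat.Agent.S34.Nodal.Inst.G.Mod.Fields
import Fermat.Agent.S34.ALExists

set_option autoImplicit false

noncomputable section

namespace Fermat.Agent.S44.X

open ModularCurve AlgebraicCurve Fermat.Agent.S24 Fermat.Agent.GAL Fermat.Agent.S28.Export

variable {A : ValuationSubring Qb} {M p : ℕ} [NeZero M] [NeZero p]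

theorem hasRed_iff_red (f : LaurentSeries Qb) (g : LaurentSeries (kA A)) :
    S34.Nodal.Inst.HasRed A f g ↔ Red A f g := Iff.rfl

/-- Every reduction at level `M p` is a reduction at level `M`. -/
theorem exists_red_level (hp : p.Prime) (hpM : ¬ p ∣ M) (hA : A.LiesOverPrime p)
    (f : FN (M * p)) {g : LaurentSeries (kA A)} (h : Red A (f : LaurentSeries Qb) g) :
    ∃ f' : FN M, Red A (f' : LaurentSeries Qb) g := by
  let W : S34.ALInv M p := S34.alInv M p hp hpM
  let w : FN (M * p) ≃ₐ[Kbar] FN (M * p) := AlgEquiv.ofRingEquiv (f := W.w) W.w_algebraMap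
  have hw : S34.Nodal.Inst.IsAL M p w := ⟨W.w_alpha, W.w_beta⟩
  obtain ⟨hy, hr⟩ := S34.Nodal.Inst.mem_gauss_FN_of_hasRed A p hp hA (M * p) f h
  obtain ⟨y', hy'⟩ := S34.Nodal.Inst.exists_rho_eq_FN hp hpM A hA hw ⟨f, hy⟩
  refine ⟨(y' : FN M), ?_⟩
  have h1 := S34.Nodal.Inst.hasRed_rho y'
  rw [hy', hr] at h1
  exact h1

end Fermat.Agent.S44.X

end
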