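/-
S44, block X1 RED (owner helper43).  The residue fields of the Gauss valuation, packaged with
`S28.Export.resField`:

* `resField_FN`     : level `N`, `p ∤ N`   : `resField A (FN N) = modularFunctionFieldFullC k N`;
* `resField_FN_mul` : level `M p`, `p ∤ M` : `resField A (FN (M p)) = modularFunctionFieldFullC k M`.
-/
import Fermat.Agent.S44.X.Red.Level
import Fermat.Agent.S44.X.Red.LevelP

set_option autoImplicit false

noncomputable section

namespace Fermat.Agent.S44.X

open ModularCurve Fermat.Agent.S24 Fermat.Agent.S28.Export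

variable {A : ValuationSubring Kbar} {p : ℕ}

/-- The easy inclusion, at any level divisible by `N`. -/
theorem full_le_resField {N N' : ℕ} (h : N ∣ N') :
    modularFunctionFieldFullC (IsLocalRing.ResidueField A) N ≤
      resField A (modularFunctionFieldBar N') := by
  rw [modularFunctionFieldFullC, IntermediateField.adjoin_le_iff]
  rintro x ⟨d, hd, hdN, rfl⟩
  exact ⟨Jser d, Jser_mem (hdN.trans h), red_Jser d⟩

theorem resField_FN {N : ℕ} [NeZero N] (hp : p.Prime) (hA : A.LiesOverPrime p) (hpN : ¬ p ∣ N) :
    resField A (modularFunctionFieldBar N) =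
      modularFunctionFieldFullC (IsLocalRing.ResidueField A) N := by
  apply le_antisymm _ (full_le_resField dvd_rfl)
  rintro g ⟨f, hf, hr⟩
  exact red_mem_full hp hA hpN ⟨f, hf⟩ hr

theorem resField_FN_mul {M : ℕ} [NeZero M] [NeZero p] (hp : p.Prime) (hA : A.LiesOverPrime p)
    (hpM : ¬ p ∣ M) :
    resField A (modularFunctionFieldBar (M * p)) =
      modularFunctionFieldFullC (IsLocalRing.ResidueField A) M := by
  apply le_antisymm _ (full_le_resField (dvd_mul_right M p))
  rintro g ⟨f, hf, hr⟩
  obtain ⟨f', hf'⟩ := exists_red_level hp hpM hA ⟨f, hf⟩ hr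
  exact red_mem_full hp hA hpM f' hf'

end Fermat.Agent.S44.X

end
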