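/-
S44, block X1 RED (owner helper43).  API of `IsRed` (S44/Defs.lean).

`IsRed A u ū` : `u = c * (x / y)`, `c ≠ 0` a constant, `x y ∈ A((q)) ∩ FN N` with nonzero reductions,
`ū = x̄ / ȳ`.  Bridge to the series level calculus `S28.Export.Red` (`isRed_iff`), multiplicativity,
uniqueness up to `kˣ`, invariance under inertia, roots.
-/
import Fermat.Agent.S44.Defs
import Fermat.Agent.S44.X.Red.Basic
import Fermat.Agent.GAL.E.Scaling
import Fermat.Agent.GAL.E.GalRed

set_option autoImplicit false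

noncomputable section

namespace Fermat.Agent.S44

open ModularCurve AlgebraicCurve Fermat.Agent.S24 Fermat.Agent.GAL Fermat.Agent.S28.Export
  Fermat.Agent.S44.X

variable {A : ValuationSubring Qb} {N : ℕ}

theorem IsRed.ne_zero {u : FN N} {ubar : LaurentSeries (kA A)} (h : IsRed A u ubar) :
    ubar ≠ 0 := by
  obtain ⟨c, x, y, hx, hy, hc, hx0, hy0, hu, hbar⟩ := h
  rintro rfl
  rw [zero_mul] at hbar
  exact hx0 hbar.symm

private theorem api_incl_ne_zero {x : LaurentSeries A} (h : E.red A x ≠ 0) : E.incl A x ≠ 0 := by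
  intro h0
  have h1 : x = 0 := E.incl_injective A (by rw [h0, map_zero])
  exact h (by rw [h1, map_zero])

private theorem api_mk_ne_zero {x : LaurentSeries A} (hx : E.incl A x ∈ modularFunctionFieldBar N)
    (h : E.red A x ≠ 0) : (⟨E.incl A x, hx⟩ : FN N) ≠ 0 := fun h0 =>
  api_incl_ne_zero h (congrArg Subtype.val h0)

private theorem api_mk_mul {x x' : LaurentSeries A} (hx : E.incl A x ∈ modularFunctionFieldBar N)
    (hx' : E.incl A x' ∈ modularFunctionFieldBar N)
    (h : E.incl A (x * x') ∈ modularFunctionFieldBar N) :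
    (⟨E.incl A (x * x'), h⟩ : FN N) = ⟨E.incl A x, hx⟩ * ⟨E.incl A x', hx'⟩ :=
  Subtype.ext (map_mul (E.incl A) x x')

private theorem api_incl_C (a : A) :
    E.incl A (HahnSeries.C a) = algebraMap Qb (LaurentSeries Qb) (a : Qb) := by
  rw [HahnSeries.C_apply, coeffMap_single, algebraMap_laurentSeries_eq_single]
  rfl

theorem IsRed.left_ne_zero {u : FN N} {ubar : LaurentSeries (kA A)} (h : IsRed A u ubar) :
    u ≠ 0 := by
  obtain ⟨c, x, y, hx, hy, hc, hx0, hy0, hu, hbar⟩ := h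
  rw [hu]
  exact mul_ne_zero ((map_ne_zero _).mpr hc)
    (div_ne_zero (api_mk_ne_zero hx hx0) (api_mk_ne_zero hy hy0))

/-- From `IsRed` to the series level. -/
theorem IsRed.exists_red {u : FN N} {ubar : LaurentSeries (kA A)} (h : IsRed A u ubar) :
    ∃ c : Qb, c ≠ 0 ∧ Red A (c • (u : LaurentSeries Qb)) ubar := by
  obtain ⟨c, x, y, hx, hy, hc, hx0, hy0, hu, hbar⟩ := h
  refine ⟨c⁻¹, inv_ne_zero hc, ?_⟩
  have h1 : (u : LaurentSeries Qb) =
      algebraMap Qb (LaurentSeries Qb) c * (E.incl A x / E.incl A y) := by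
    rw [hu]
    rfl
  have h2 : c⁻¹ • (u : LaurentSeries Qb) = E.incl A x / E.incl A y := by
    rw [h1, ← HahnSeries.C_mul_eq_smul, algebraMap_laurentSeries_eq_single, ← HahnSeries.C_apply,
      ← mul_assoc, ← map_mul, inv_mul_cancel₀ hc, map_one, one_mul]
  have h3 : ubar = E.red A x / E.red A y := by rw [eq_div_iff hy0, hbar]
  rw [h2, h3]
  exact (red_iota x).div (red_iota y) hy0

/-- series level: two scalings with nonzero reductions differ by a unit. -/
private theorem api_red_unique {f : LaurentSeries Qb} {g g' : LaurentSeries (kA A)} {c c' : Qb}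
    (hc : c ≠ 0) (h : Red A (c • f) g) (hg : g ≠ 0) (h' : Red A (c' • f) g') (hg' : g' ≠ 0) :
    ∃ a : kA A, a ≠ 0 ∧ g' = HahnSeries.C a * g := by
  have e : (c' / c) • (c • f) = c' • f := by
    rw [smul_smul, div_mul_cancel₀ _ hc]
  have hmem : c' / c ∈ A := mem_of_red_smul h hg (g' := g') (by rw [e]; exact h')
  have h1 := h.smul ⟨c' / c, hmem⟩
  rw [e] at h1
  have h2 := h'.unique h1
  refine ⟨IsLocalRing.residue A ⟨c' / c, hmem⟩, ?_, ?_⟩
  · intro h0
    rw [h0, zero_smul] at h2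
    exact hg' h2
  · rw [h2, smul_eq_C_mul]

/-- `IsRed.C_mul`, private copy (needed before `isRed_of_red`). -/
private theorem api_C_mul {u : FN N} {ubar : LaurentSeries (kA A)} (hu : IsRed A u ubar)
    {a : kA A} (ha : a ≠ 0) : IsRed A u (HahnSeries.C a * ubar) := by
  obtain ⟨c, x, y, hx, hy, hc, hrx, hry, hu, hbar⟩ := hu
  obtain ⟨α, rfl⟩ := IsLocalRing.residue_surjective a
  have hα : (α : Qb) ≠ 0 := by
    intro h
    apply ha
    have : α = 0 := Subtype.ext h
    rw [this, map_zero]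
  have e1 : E.incl A (HahnSeries.C α * x) = HahnSeries.C (α : Qb) * E.incl A x := by
    rw [map_mul]
    congr 1
    change coeffMap A.subtype (HahnSeries.single 0 α) = _
    rw [coeffMap_single]; rfl
  have e2 : E.red A (HahnSeries.C α * x) = HahnSeries.C (IsLocalRing.residue A α) * E.red A x := by
    rw [map_mul]
    congr 1
    change coeffMap (IsLocalRing.residue A) (HahnSeries.single 0 α) = _
    rw [coeffMap_single]; rfl
  have hCa : (HahnSeries.C (IsLocalRing.residue A α) : LaurentSeries (kA A)) ≠ 0 := by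
    intro h
    apply ha
    have := congrArg (fun s : LaurentSeries (kA A) => s.coeff 0) h
    simpa using this
  have hCα : (HahnSeries.C (α : Qb) : LaurentSeries Qb) ≠ 0 := by
    intro h
    apply hα
    have := congrArg (fun s : LaurentSeries Qb => s.coeff 0) h
    simpa using this
  have hx' : E.incl A (HahnSeries.C α * x) ∈ modularFunctionFieldBar N := by
    rw [e1]
    exact mul_mem (E.scaling_C_mem N _) hx
  refine ⟨c / α, HahnSeries.C α * x, y, hx', hy, div_ne_zero hc hα, ?_, hry, ?_, ?_⟩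
  · rw [e2]
    exact mul_ne_zero hCa hrx
  · rw [hu]
    apply Subtype.ext
    show ((algebraMap Qb (FN N) c : FN N) : LaurentSeries Qb) * (E.incl A x / E.incl A y) =
      ((algebraMap Qb (FN N) (c / α) : FN N) : LaurentSeries Qb) *
        (E.incl A (HahnSeries.C α * x) / E.incl A y)
    have hC : ∀ b : Qb, ((algebraMap Qb (FN N) b : FN N) : LaurentSeries Qb) = HahnSeries.C b :=
      fun b => E.scaling_algebraMap b
    rw [hC, hC, e1, map_div₀]
    field_simp
  · rw [e2, mul_assoc, hbar]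

/-- the Gauss normalisation, as an `IsRed`. -/
private theorem api_exists_isRed {p : ℕ} (hp : p.Prime) (hA : A.LiesOverPrime p) {u : FN N}
    (hu : u ≠ 0) : ∃ w : LaurentSeries (kA A), IsRed A u w := by
  obtain ⟨c, x, y, hx, hy, hc, hrx, hry, e⟩ := E.exists_scaling A p hp hA N u hu
  exact ⟨E.red A x / E.red A y, c, x, y, hx, hy, hc, hrx, hry, e, div_mul_cancel₀ _ hry⟩

/-- From the series level to `IsRed`. -/
theorem isRed_of_red {p : ℕ} (hp : p.Prime) (hA : A.LiesOverPrime p) {u : FN N}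
    {ubar : LaurentSeries (kA A)} (h0 : ubar ≠ 0) {c : Qb} (hc : c ≠ 0)
    (h : Red A (c • (u : LaurentSeries Qb)) ubar) : IsRed A u ubar := by
  have hu : u ≠ 0 := by
    rintro rfl
    apply h.ne_zero h0
    show c • (0 : LaurentSeries Qb) = 0
    rw [smul_zero]
  obtain ⟨w, hw⟩ := api_exists_isRed hp hA hu
  obtain ⟨c₁, hc₁, h₁⟩ := hw.exists_red
  obtain ⟨a, ha, rfl⟩ := api_red_unique hc₁ h₁ hw.ne_zero h h0
  exact api_C_mul hw ha

theorem isRed_iff {p : ℕ} (hp : p.Prime) (hA : A.LiesOverPrime p) (u : FN N)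
    (ubar : LaurentSeries (kA A)) :
    IsRed A u ubar ↔ ubar ≠ 0 ∧ ∃ c : Qb, c ≠ 0 ∧ Red A (c • (u : LaurentSeries Qb)) ubar :=
  ⟨fun h => ⟨h.ne_zero, h.exists_red⟩,
    fun ⟨h0, _, hc, h⟩ => isRed_of_red hp hA h0 hc h⟩

theorem isRed_algebraMap {c : Qb} (hc : c ≠ 0) : IsRed A (algebraMap Qb (FN N) c) 1 := by
  have h1 : E.incl A 1 ∈ modularFunctionFieldBar N := by rw [map_one]; exact one_mem _
  have h2 : E.red A 1 ≠ 0 := by rw [map_one]; exact one_ne_zero
  refine ⟨c, 1, 1, h1, h1, hc, h2, h2, ?_, one_mul _⟩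
  rw [div_self (api_mk_ne_zero h1 h2), mul_one]

theorem isRed_one : IsRed A (1 : FN N) 1 := by
  have h := isRed_algebraMap (A := A) (N := N) (one_ne_zero (α := Qb))
  rwa [map_one] at h

theorem IsRed.mul {u v : FN N} {ubar vbar : LaurentSeries (kA A)} (hu : IsRed A u ubar)
    (hv : IsRed A v vbar) : IsRed A (u * v) (ubar * vbar) := by
  obtain ⟨c, x, y, hx, hy, hc, hx0, hy0, hu, hbar⟩ := hu
  obtain ⟨c', x', y', hx', hy', hc', hx0', hy0', hv, hbar'⟩ := hv
  have hxx : E.incl A (x * x') ∈ modularFunctionFieldBar N := by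
    rw [map_mul]; exact mul_mem hx hx'
  have hyy : E.incl A (y * y') ∈ modularFunctionFieldBar N := by
    rw [map_mul]; exact mul_mem hy hy'
  refine ⟨c * c', x * x', y * y', hxx, hyy, mul_ne_zero hc hc', ?_, ?_, ?_, ?_⟩
  · rw [map_mul]; exact mul_ne_zero hx0 hx0'
  · rw [map_mul]; exact mul_ne_zero hy0 hy0'
  · rw [api_mk_mul hx hx' hxx, api_mk_mul hy hy' hyy, hu, hv, map_mul, mul_div_mul_comm]
    ring
  · rw [map_mul, map_mul, ← hbar, ← hbar']
    ring

theorem IsRed.inv {u : FN N} {ubar : LaurentSeries (kA A)} (hu : IsRed A u ubar) :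
    IsRed A u⁻¹ ubar⁻¹ := by
  have hne := hu.ne_zero
  obtain ⟨c, x, y, hx, hy, hc, hx0, hy0, hu, hbar⟩ := hu
  refine ⟨c⁻¹, y, x, hy, hx, inv_ne_zero hc, hy0, hx0, ?_, ?_⟩
  · rw [hu, mul_inv, inv_div, map_inv₀]
  · rw [← hbar, inv_mul_cancel_left₀ hne]

theorem IsRed.div {u v : FN N} {ubar vbar : LaurentSeries (kA A)} (hu : IsRed A u ubar)
    (hv : IsRed A v vbar) : IsRed A (u / v) (ubar / vbar) := by
  rw [div_eq_mul_inv, div_eq_mul_inv]
  exact hu.mul hv.inv

theorem IsRed.pow {u : FN N} {ubar : LaurentSeries (kA A)} (hu : IsRed A u ubar) (n : ℕ) :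
    IsRed A (u ^ n) (ubar ^ n) := by
  induction n with
  | zero => simpa using isRed_one
  | succ n ih => rw [pow_succ, pow_succ]; exact ih.mul hu

/-- The reduction may be multiplied by a nonzero constant of `k`. -/
theorem IsRed.C_mul {u : FN N} {ubar : LaurentSeries (kA A)} (hu : IsRed A u ubar) {a : kA A}
    (ha : a ≠ 0) : IsRed A u (HahnSeries.C a * ubar) := by
  obtain ⟨c, x, y, hx, hy, hc, hx0, hy0, hu, hbar⟩ := hu
  obtain ⟨α, rfl⟩ := IsLocalRing.residue_surjective a
  have hα : (α : Qb) ≠ 0 := by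
    intro h0
    apply ha
    have : α = 0 := Subtype.ext h0
    rw [this, map_zero]
  have hred : E.red A (HahnSeries.C α) = HahnSeries.C (IsLocalRing.residue A α) := by
    rw [HahnSeries.C_apply, coeffMap_single, HahnSeries.C_apply]
  have hxx : E.incl A (HahnSeries.C α * x) ∈ modularFunctionFieldBar N := by
    rw [map_mul, api_incl_C]
    exact mul_mem ((modularFunctionFieldBar N).algebraMap_mem _) hx
  have hmk : (⟨E.incl A (HahnSeries.C α * x), hxx⟩ : FN N) =
      algebraMap Qb (FN N) (α : Qb) * ⟨E.incl A x, hx⟩ := by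
    apply Subtype.ext
    show E.incl A (HahnSeries.C α * x) = algebraMap Qb (LaurentSeries Qb) (α : Qb) * E.incl A x
    rw [map_mul, api_incl_C]
  refine ⟨c / α, HahnSeries.C α * x, y, hxx, hy, div_ne_zero hc hα, ?_, hy0, ?_, ?_⟩
  · rw [map_mul, hred]
    exact mul_ne_zero (by rw [Ne, map_eq_zero_iff _ HahnSeries.C_injective]; exact ha) hx0
  · rw [hmk, hu, mul_div_assoc, ← mul_assoc, ← map_mul, div_mul_cancel₀ c hα]
  · rw [map_mul, hred, mul_assoc, hbar]

/-- The reduction is unique up to a nonzero constant of `k`. -/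
theorem IsRed.unique {u : FN N} {ubar ubar' : LaurentSeries (kA A)} (h : IsRed A u ubar)
    (h' : IsRed A u ubar') : ∃ a : kA A, a ≠ 0 ∧ ubar' = HahnSeries.C a * ubar := by
  obtain ⟨c, hc, h₁⟩ := h.exists_red
  obtain ⟨c', _, h₂⟩ := h'.exists_red
  exact api_red_unique hc h₁ h.ne_zero h₂ h'.ne_zero

/-- Invariance under the inertia group. -/
theorem IsRed.galF {u : FN N} {ubar : LaurentSeries (kA A)} (h : IsRed A u ubar) {σ : GQ}
    (hσ : σ ∈ Iner A) : IsRed A (E.galF N σ u) ubar := by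
  obtain ⟨c, x, y, hx, hy, hc, hx0, hy0, hu, hbar⟩ := h
  obtain ⟨x', hx1, hx2⟩ := E.exists_gal_of_inertia A σ hσ x
  obtain ⟨y', hy1, hy2⟩ := E.exists_gal_of_inertia A σ hσ y
  have hxm : E.incl A x' ∈ modularFunctionFieldBar N := by
    rw [hx1]
    exact (E.galF N σ ⟨E.incl A x, hx⟩).2
  have hym : E.incl A y' ∈ modularFunctionFieldBar N := by
    rw [hy1]
    exact (E.galF N σ ⟨E.incl A y, hy⟩).2
  have ex : (⟨E.incl A x', hxm⟩ : FN N) = E.galF N σ ⟨E.incl A x, hx⟩ := Subtype.ext hx1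
  have ey : (⟨E.incl A y', hym⟩ : FN N) = E.galF N σ ⟨E.incl A y, hy⟩ := Subtype.ext hy1
  refine ⟨σ c, x', y', hxm, hym, (map_ne_zero σ).mpr hc, by rw [hx2]; exact hx0,
    by rw [hy2]; exact hy0, ?_, by rw [hx2, hy2]; exact hbar⟩
  rw [ex, ey, hu, map_mul, map_div₀, E.galF_algebraMap]

/-- The residue field is closed under roots. -/
theorem exists_pow_eq_kA (a : kA A) {n : ℕ} (hn : 0 < n) : ∃ b : kA A, b ^ n = a := by
  obtain ⟨α, rfl⟩ := IsLocalRing.residue_surjective a
  obtain ⟨β, hβ⟩ := IsAlgClosed.exists_pow_nat_eq (α : Qb) hn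
  have hmem : β ∈ A := by
    rw [← A.valuation_le_one_iff]
    have h1 : A.valuation β ^ n ≤ 1 := by
      rw [← map_pow, hβ]
      exact A.valuation_le_one α
    exact (pow_le_one_iff hn.ne').1 h1
  refine ⟨IsLocalRing.residue A ⟨β, hmem⟩, ?_⟩
  rw [← map_pow]
  congr 1
  exact Subtype.ext hβ

/-- Roots: the reduction of an `n`-th power is an `n`-th power of a reduction. -/
theorem IsRed.exists_root {p : ℕ} (hp : p.Prime) (hA : A.LiesOverPrime p) {v : FN N} {n : ℕ}
    (hn : 0 < n) {ubar : LaurentSeries (kA A)} (h : IsRed A (v ^ n) ubar) :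
    ∃ vbar : LaurentSeries (kA A), IsRed A v vbar ∧ ubar = vbar ^ n := by
  have hv : v ≠ 0 := by
    rintro rfl
    apply h.left_ne_zero
    exact zero_pow hn.ne'
  obtain ⟨w, hw⟩ := api_exists_isRed hp hA hv
  obtain ⟨a, ha, rfl⟩ := (hw.pow n).unique h
  obtain ⟨b, rfl⟩ := exists_pow_eq_kA a hn
  have hb : b ≠ 0 := by
    rintro rfl
    exact ha (zero_pow hn.ne')
  exact ⟨HahnSeries.C b * w, hw.C_mul hb, by rw [mul_pow, ← map_pow]⟩

end Fermat.Agent.S44

end
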