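/-
S44, block X1 RED (owner helper43).  **NodeRed**: the Gauss reduction of a function of level `M p`
(`p ∤ M`, residue characteristic `p`) lies in the function field of `X₀(M)` over the residue field.

* level `M p` → level `M`: the trace trick of helper95 (`S34.Nodal.Inst.exists_rho_eq_FN`);
* level `M`: `red_mem_full` (`Red/Level.lean`).
-/
import Fermat.Agent.S44.X.Top
import Fermat.Agent.S44.X.Red.Level
import Fermat.Agent.S44.X.Red.LevelP

set_option autoImplicit false

noncomputable section

namespace Fermat.Agent.S44.X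

open ModularCurve AlgebraicCurve Fermat.Agent.S24 Fermat.Agent.GAL Fermat.Agent.S28.Export

variable {A : ValuationSubring Qb} {M p : ℕ} [NeZero M] [NeZero p]

/-- **The residue field of the Gauss valuation at level `M p`.** -/
theorem red_mem_full_mul (hp : p.Prime) (hpM : ¬ p ∣ M) (hA : A.LiesOverPrime p)
    (f : FN (M * p)) {g : LaurentSeries (kA A)} (h : Red A (f : LaurentSeries Qb) g) :
    g ∈ modularFunctionFieldFullC (kA A) M := by
  obtain ⟨f', hf'⟩ := exists_red_level hp hpM hA f h
  exact red_mem_full hp hA hpM f' hf'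

theorem nodeRed : NodeRed := by
  intro p _ M' _ hp hpM A hA u hu
  obtain ⟨c, x, y, hx, hy, hc, hrx, hry, huxy⟩ := E.exists_scaling A p hp hA (M' * p) u hu
  have h1 : Red A (((⟨E.incl A x, hx⟩ : FN (M' * p)) / ⟨E.incl A y, hy⟩ : FN (M' * p)) :
      LaurentSeries Qb) (E.red A x / E.red A y) := (red_iota x).div (red_iota y) hry
  exact ⟨⟨E.red A x / E.red A y, red_mem_full_mul hp hpM hA _ h1⟩, c, x, y, hx, hy, hc, hrx, hry,
    huxy, div_mul_cancel₀ _ hry⟩

end Fermat.Agent.S44.X

end
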