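/-
S44, block X1 RED (owner helper43).  The analogue of `NodeRed` at a level prime to `p`.
-/
import Fermat.Agent.S44.Defs
import Fermat.Agent.S44.X.Red.Level

set_option autoImplicit false

noncomputable section

namespace Fermat.Agent.S44.X

open ModularCurve AlgebraicCurve Fermat.Agent.S24 Fermat.Agent.GAL Fermat.Agent.S28.Export

/-- Every nonzero function of level `N`, `p ∤ N`, has a reduction in the function field of `X₀(N)`
over the residue field. -/
theorem exists_isRed_good {p N : ℕ} [NeZero N] (hp : p.Prime) (hpN : ¬ p ∣ N)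
    (A : ValuationSubring Qb) (hA : A.LiesOverPrime p) (u : FN N) (hu : u ≠ 0) :
    ∃ ubar : Fk A N, IsRed A u (ubar : LaurentSeries (kA A)) := by
  obtain ⟨c, x, y, hx, hy, hc, hrx, hry, huxy⟩ := E.exists_scaling A p hp hA N u hu
  have h1 : Red A (((⟨E.incl A x, hx⟩ : FN N) / ⟨E.incl A y, hy⟩ : FN N) :
      LaurentSeries Qb) (E.red A x / E.red A y) := (red_iota x).div (red_iota y) hry
  exact ⟨⟨E.red A x / E.red A y, red_mem_full hp hA hpN _ h1⟩, c, x, y, hx, hy, hc, hrx, hry,
    huxy, div_mul_cancel₀ _ hry⟩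

end Fermat.Agent.S44.X

end
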