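/-
S44, block X1 RED (owner helper43).  Degree and separability of `Fk A N = modularFunctionFieldFullC k N`
over `k(j)`, for `p ∤ N` (from `resField_FN` and the S28 export).
-/
import Fermat.Agent.S44.X.Red.ResField

set_option autoImplicit false

noncomputable section

namespace Fermat.Agent.S44.X

open ModularCurve Fermat.Agent.S24 Fermat.Agent.S28.Export

variable {A : ValuationSubring Kbar} {p N : ℕ} [NeZero N]

/-- `k(j, ū) = k(j(q^d) : d ∣ N)`. -/
theorem bigk_eq_full [Fact p.Prime] (hA : A.LiesOverPrime p) (hpN : ¬ p ∣ N) (D : S28.UData N p)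
    (hu : D.u ∈ modularFunctionFieldFull N) :
    bigk A D hA = modularFunctionFieldFullC (IsLocalRing.ResidueField A) N := by
  rw [← resField_bigK, bigK_eq_full A D hA hu, ← bar_eq_full, resField_FN (Fact.out) hA hpN]

/-- `[k(X₀(N)) : k(j)] = [SL₂(ℤ) : Γ₀(N)]`. -/
theorem relfinrank_full (hp : p.Prime) (hA : A.LiesOverPrime p) (hpN : ¬ p ∣ N) :
    (jK (IsLocalRing.ResidueField A)).relfinrank
      (modularFunctionFieldFullC (IsLocalRing.ResidueField A) N) =
        (CongruenceSubgroup.Gamma0 N).index := by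
  have : Fact p.Prime := ⟨hp⟩
  obtain ⟨D, hn, hu⟩ := exists_good_UData N p hpN
  rw [← bigk_eq_full hA hpN D hu, relfinrank_bigk, hn]

theorem jK_le_fullC (k : Type*) [Field k] (N : ℕ) : jK k ≤ modularFunctionFieldFullC k N := by
  rw [IntermediateField.adjoin_le_iff]
  rintro z rfl
  exact jqModC_mem_full k N

/-- every element of `k(X₀(N))` is separable over `k(j)`. -/
theorem isSeparable_of_mem_full (hp : p.Prime) (hA : A.LiesOverPrime p) (hpN : ¬ p ∣ N)
    {z : LaurentSeries (IsLocalRing.ResidueField A)}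
    (hz : z ∈ modularFunctionFieldFullC (IsLocalRing.ResidueField A) N) :
    IsSeparable (jK (IsLocalRing.ResidueField A)) z := by
  have : Fact p.Prime := ⟨hp⟩
  obtain ⟨D, hn, hu⟩ := exists_good_UData N p hpN
  rw [← bigk_eq_full hA hpN D hu] at hz
  have h := isSeparable_bigk A D hA
  have h1 := Algebra.IsSeparable.isSeparable (jK (IsLocalRing.ResidueField A))
    (⟨z, hz⟩ : IntermediateField.extendScalars (jK_le_bigk A D hA))
  have h2 := h1.map (f := (IntermediateField.extendScalars (jK_le_bigk A D hA)).val)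
  exact h2 (RingHom.injective _)

end Fermat.Agent.S44.X

end
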