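/-
S44, block X1 RED (owner helper43).  LEAF L5: the modular fields and their conjugates lie in the ambient Gauss-good field `fracField A`.

Proof of `FN_le_fracField`: `S24.Formal.modularFunctionFieldBar_le_adjoin_genSer N` :
`modularFunctionFieldBar N ≤ IntermediateField.adjoin Kbar (Formal.genSer N)`; then
`IntermediateField.adjoin_le_iff`; a generator is `Jser d`, whose coefficients are integers
(`GAL.E.exists_int_coeff_Jser`): `bdd_of_coeff_mem ⊥` (see the first case of
`GAL.E.exists_bound_of_mem_adjoin_aux`), `mem_fracField_of_bdd`.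
-/
import Fermat.Agent.S44.X.Red.Bdd
import Fermat.Agent.S44.X.Red.ConjGen

set_option autoImplicit false

noncomputable section

namespace Fermat.Agent.S44.X

open ModularCurve Fermat.Agent.S24 Fermat.Agent.S24.B Fermat.Agent.GAL.E Fermat.Agent.S28.Export
  CongruenceSubgroup IntermediateField
open scoped MatrixGroups

variable {A : ValuationSubring Kbar} {N : ℕ}

theorem conj_mem_fracField [NeZero N] (γ : SL(2, ℤ)) (f : FN N) : conj N γ f ∈ fracField A :=
  conj_mem_of_gen (fracField A) (fun e _ x => mem_fracField_of_bdd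
    (bdd_qExpand_twist_Jser e (Nat.pos_of_ne_zero (NeZero.ne N)) (by
      rw [← zpow_natCast, ← zpow_mul, mul_comm, zpow_mul, zpow_natCast,
        (isPrimitiveRoot_zetaK N).pow_eq_one, one_zpow]))) γ f

theorem FN_le_fracField : modularFunctionFieldBar N ≤ fracField A := by
  refine (Formal.modularFunctionFieldBar_le_adjoin_genSer N).trans ?_
  rw [IntermediateField.adjoin_le_iff]
  rintro _ ⟨d, hne, -, rfl⟩
  refine mem_fracField_of_bdd (bdd_of_coeff_mem ⊥ (fun k => ?_) (fun k => ?_))
  · obtain ⟨n, hn⟩ := exists_int_coeff_Jser d k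
    rw [hn]
    exact intCast_mem _ n
  · obtain ⟨n, hn⟩ := exists_int_coeff_Jser d k
    rw [hn]
    exact intCast_mem _ n

end Fermat.Agent.S44.X

end
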