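/-
S44, block X1 RED (owner helper43; proofs helper230).  LEAF L6: the conjugates of a Gauss integral element are Gauss integral (`p ∤ N`).

Proofs.
`isIntegral_Rv_of_red` : `haveI : Fact p.Prime := ⟨hp⟩`; `S28.Export.exists_good_UData N p hpN` gives
`D : UData N p` with `D.u ∈ modularFunctionFieldFull N`; `S28.Export.bigK_eq_full A D hA hu` and
`S28.Export.bar_eq_full N` turn `f.2` into `(f : _) ∈ bigK A D hA`; `S28.Export.isIntegral_of_red`.
`mem_adjoin_jF_of_mem_jK` : the image of `Kbar⟮jF N⟯` under `(modularFunctionFieldBar N).val` is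
`jK Kbar = adjoin Kbar {jqModC Kbar}` (`IntermediateField.adjoin_map`, `Set.image_singleton`, the value
of `jF N` is computed in `S28.Export.relfinrank_full_bar`); or `IntermediateField.adjoin_induction`
on `ha` proving `∃ r ∈ Kbar⟮jF N⟯, (r : LaurentSeries Kbar) = a`.
`exists_red_conj` : let `P` be monic over `Rv A` with root `f` (`isIntegral_Rv_of_red`).  The map
`ψ : Rv A →+* redRing A`, `a ↦ qExpand Kbar N a` is a ring hom (`RingHom.codRestrict`, `red_qExpand`).
`conj N γ f` is a root of `P.map ψ`: write `a_i = (r_i : series)` with `r_i ∈ Kbar⟮jF N⟯`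
(`mem_adjoin_jF_of_mem_jK`), then `∑ r_i f ^ i = 0` in `FN N` (`Subtype.ext`), apply `conj N γ` and
`conj_of_mem_adjoin`.  (`Polynomial.eval₂_eq_sum_range`, `Polynomial.eval₂_map`.)
So `IsIntegral (redRing A) (conj N γ f)`; conclude with `red_of_isIntegral (isGood_fracField p hp hA)
(conj_mem_fracField γ f)`.
-/
import Fermat.Agent.S44.X.Red.Frac
import Fermat.Agent.S28.Export.Main

set_option autoImplicit false

noncomputable section

namespace Fermat.Agent.S44.X

open ModularCurve Fermat.Agent.S24 Fermat.Agent.S24.B Fermat.Agent.GAL.E Fermat.Agent.S28.Export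
  CongruenceSubgroup IntermediateField
open scoped MatrixGroups

variable {A : ValuationSubring Kbar} {N p : ℕ} [NeZero N]

/-- (S28) a Gauss integral element of `FN N` is integral over the Gauss ring of `ℚ̄(j)`. -/
theorem isIntegral_Rv_of_red (hp : p.Prime) (hA : A.LiesOverPrime p) (hpN : ¬ p ∣ N) (f : FN N)
    {g : LaurentSeries (IsLocalRing.ResidueField A)} (h : Red A (f : LaurentSeries Kbar) g) :
    IsIntegral (Rv A) (f : LaurentSeries Kbar) := by
  have : Fact p.Prime := ⟨hp⟩
  obtain ⟨D, -, hu⟩ := S28.Export.exists_good_UData N p hpN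
  have hf : (f : LaurentSeries Kbar) ∈ bigK A D hA := by
    rw [bigK_eq_full A D hA hu, ← bar_eq_full N]
    exact f.2
  exact isIntegral_of_red A D hA hf h

omit [NeZero N] in
private theorem Integral_val_jF : ((jF N : FN N) : LaurentSeries Kbar) = jqModC Kbar := by
  change coeffEmb Kbar (qExpand ℚ 1 jq) = jqModC Kbar
  rw [qExpand_one_apply]
  exact coeffMap_jqModC (R := ℚ) _

omit [NeZero N] in
private theorem Integral_map_adjoin :
    (Kbar⟮jF N⟯).map (modularFunctionFieldBar N).val = jK Kbar := by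
  rw [IntermediateField.adjoin_map, Set.image_singleton]
  have e : (modularFunctionFieldBar N).val (jF N) = jqModC Kbar := Integral_val_jF (N := N)
  rw [e]

omit [NeZero N] in
/-- `ℚ̄(j)` as a subfield of `ℚ̄((q))` and as a subfield of `FN N`. -/
theorem mem_adjoin_jF_of_mem_jK {a : LaurentSeries Kbar} (ha : a ∈ jK Kbar) :
    ∃ r ∈ Kbar⟮jF N⟯, ((r : FN N) : LaurentSeries Kbar) = a := by
  rw [← Integral_map_adjoin (N := N)] at ha
  obtain ⟨r, hr, rfl⟩ := ha
  exact ⟨r, hr, rfl⟩

omit [NeZero N] in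
theorem coe_mem_jK_of_mem_adjoin_jF {r : FN N} (hr : r ∈ Kbar⟮jF N⟯) :
    (r : LaurentSeries Kbar) ∈ jK Kbar := by
  rw [← Integral_map_adjoin (N := N)]
  exact ⟨r, hr, rfl⟩

/-- The conjugates of a Gauss integral element are Gauss integral. -/
theorem exists_red_conj (hp : p.Prime) (hA : A.LiesOverPrime p) (hpN : ¬ p ∣ N) (γ : SL(2, ℤ))
    (f : FN N) {g : LaurentSeries (IsLocalRing.ResidueField A)}
    (h : Red A (f : LaurentSeries Kbar) g) : ∃ g', Red A (conj N γ f) g' := by
  obtain ⟨P, hP, hPf⟩ := isIntegral_Rv_of_red hp hA hpN f h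
  -- the Gauss ring of `ℚ̄(j)` inside `FN N`
  have hmem : ∀ a : Rv A, (Rv A).subtype a ∈ (modularFunctionFieldBar N).toSubfield.toSubring := by
    intro a
    obtain ⟨r, -, hr⟩ := mem_adjoin_jF_of_mem_jK (N := N) a.2.1
    have h1 : (Rv A).subtype a = (r : LaurentSeries Kbar) := hr.symm
    rw [h1]
    exact r.2
  let φ : Rv A →+* FN N :=
    RingHom.codRestrict (Rv A).subtype (modularFunctionFieldBar N).toSubfield.toSubring hmem
  have hφ : ∀ a : Rv A, ((φ a : FN N) : LaurentSeries Kbar) = a := fun a => rfl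
  have hφmem : ∀ a : Rv A, φ a ∈ Kbar⟮jF N⟯ := by
    intro a
    obtain ⟨r, hr, hra⟩ := mem_adjoin_jF_of_mem_jK (N := N) a.2.1
    have h1 : φ a = r := Subtype.ext (by rw [hφ, hra])
    rw [h1]
    exact hr
  -- the map `a ↦ a(q ^ N)`
  let ψ : Rv A →+* redRing A :=
    RingHom.codRestrict ((qExpand Kbar N).comp (Rv A).subtype) (redRing A) (fun a => by
      obtain ⟨-, g₁, hg₁⟩ := a.2
      exact ⟨_, red_qExpand hg₁ N⟩)
  have h1 : Polynomial.eval₂ φ f P = 0 := by
    apply Subtype.val_injective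
    have h2 := Polynomial.hom_eval₂ P φ (algebraMap (FN N) (LaurentSeries Kbar)) f
    have h3 : (algebraMap (FN N) (LaurentSeries Kbar)).comp φ =
        algebraMap (Rv A) (LaurentSeries Kbar) := RingHom.ext fun a => rfl
    rw [h3] at h2
    exact h2.trans hPf
  have h2 : Polynomial.eval₂ ((conj N γ).comp φ) (conj N γ f) P = 0 := by
    rw [← Polynomial.hom_eval₂, h1, map_zero]
  have h3 : (conj N γ).comp φ = (algebraMap (redRing A) (LaurentSeries Kbar)).comp ψ := by
    refine RingHom.ext fun a => ?_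
    show conj N γ (φ a) = qExpand Kbar N (a : LaurentSeries Kbar)
    rw [conj_of_mem_adjoin γ (hφmem a), hφ]
  have hint : IsIntegral (redRing A) (conj N γ f) := by
    refine ⟨P.map ψ, hP.map _, ?_⟩
    rw [Polynomial.eval₂_map, ← h3]
    exact h2
  exact red_of_isIntegral (isGood_fracField p hp hA) (conj_mem_fracField γ f) hint

end Fermat.Agent.S44.X

end
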